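import Fermat.Agent.Reps.Tate
import Fermat.Agent.Reps.Existence
import Fermat.Agent.Reps.Eigen
import Fermat.Agent.Local.Span
import Fermat.Agent.GalCommon.Frobenius
import Fermat.Agent.Kronecker.HeckeGalois
import Fermat.Agent.Kronecker.Inputs

/-!
# Torsion points of `p`-adic vectors

Coordinates for `J₀(N)[p^∞]`: `pt N p n` turns a `p`-adic vector into the torsion point of level
`p ^ n`, Galois acts through the matrices `galZp` (`pt_galois`) and Hecke operators through the
integral matrices `heckeAt`. `exists_projector` gives a projector onto a saturated lattice (the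
quotient is free, hence split). `exists_equivariant_padicMat` turns a Galois equivariant map of
Jacobians into a matrix commuting with Galois, hence, by the Frobenius relation `heckeAt_eq`, with
the good Hecke operators (`mul_heckeAt`). `pushPic` is pushforward of divisor classes.
-/

set_option autoImplicit false
set_option linter.unusedSectionVars false
set_option linter.style.haveILetI false

noncomputable section

open ModularCurve AlgebraicCurve Matrix

namespace FLTAgent.OrdP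

open FLTAgent.Reps

local notation "Qb" => AlgebraicClosure ℚ
local notation "Γℚ" => (AlgebraicClosure ℚ ≃ₐ[ℚ] AlgebraicClosure ℚ)

/-- Coordinate vectors of rank `rankH N`. -/
abbrev Cv (N : ℕ) [NeZero N] (R : Type) : Type := Fin (Period.rankH N) → R

/-- Square matrices of size `rankH N`. -/
abbrev Cm (N : ℕ) [NeZero N] (R : Type) : Type :=
  Matrix (Fin (Period.rankH N)) (Fin (Period.rankH N)) R

variable (N : ℕ) [NeZero N] (p : ℕ) [Fact p.Prime]

/-- The `p`-adic Galois matrices. -/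
def galZp : Γℚ →* Cm N ℤ_[p] := (galModel N p).M

/-- The integral Hecke matrix at a prime. -/
def heckeAt (l : Nat.Primes) : Cm N ℤ := HeckeH.heckeMatHom N (heckeGenOf N l)

/-- The torsion point of level `p ^ n` of a `p`-adic vector. -/
def pt (n : ℕ) : Cv N ℤ_[p] →+ JZero N :=
  (tors N (p ^ n)).subtype.comp ((coordTors N (p ^ n)).symm.toAddMonoidHom.comp
    ((PadicInt.toZModPow n).toAddMonoidHom.compLeft (Fin (Period.rankH N))))

variable {N p}

theorem pt_mem (n : ℕ) (u : Cv N ℤ_[p]) : pt N p n u ∈ tors N (p ^ n) := SetLike.coe_mem _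

theorem coordTors_pt (n : ℕ) (u : Cv N ℤ_[p]) :
    coordTors N (p ^ n) ⟨pt N p n u, pt_mem n u⟩ = fun i => PadicInt.toZModPow n (u i) :=
  (coordTors N (p ^ n)).apply_symm_apply _

theorem pt_eq_iff {n : ℕ} {u v : Cv N ℤ_[p]} :
    pt N p n u = pt N p n v ↔ ∀ i, PadicInt.toZModPow n (u i) = PadicInt.toZModPow n (v i) := by
  refine ⟨fun h i => ?_, fun h => ?_⟩
  · have h1 := congrArg (coordTors N (p ^ n))
      (Subtype.ext (a1 := ⟨pt N p n u, pt_mem n u⟩) (a2 := ⟨pt N p n v, pt_mem n v⟩) h)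
    rw [coordTors_pt, coordTors_pt] at h1
    exact congrFun h1 i
  · have h1 : (⟨pt N p n u, pt_mem n u⟩ : tors N (p ^ n)) = ⟨pt N p n v, pt_mem n v⟩ :=
      (coordTors N (p ^ n)).injective (by rw [coordTors_pt, coordTors_pt]; exact funext h)
    exact congrArg Subtype.val h1

theorem eq_of_forall_pt {u v : Cv N ℤ_[p]} (h : ∀ n, pt N p n u = pt N p n v) : u = v :=
  funext fun i => PadicInt.ext_of_toZModPow.mp fun n => pt_eq_iff.mp (h n) i

theorem exists_pt_eq {n : ℕ} {x : JZero N} (hx : x ∈ tors N (p ^ n)) :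
    ∃ u : Cv N ℤ_[p], pt N p n u = x := by
  have hs : ∀ a : ZMod (p ^ n), ∃ z : ℤ_[p], PadicInt.toZModPow n z = a := fun a =>
    ⟨(a.val : ℤ_[p]), by rw [map_natCast, ZMod.natCast_zmod_val]⟩
  choose s hs using hs
  refine ⟨fun i => s (coordTors N (p ^ n) ⟨x, hx⟩ i), ?_⟩
  have h1 : (⟨pt N p n (fun i => s (coordTors N (p ^ n) ⟨x, hx⟩ i)), pt_mem n _⟩ :
      tors N (p ^ n)) = ⟨x, hx⟩ :=
    (coordTors N (p ^ n)).injective (by rw [coordTors_pt]; exact funext fun i => hs _)
  exact congrArg Subtype.val h1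

/-- Scaling by a `p`-adic integer. -/
theorem pt_smul (n : ℕ) (a : ℤ_[p]) (u : Cv N ℤ_[p]) :
    pt N p n (a • u) = (PadicInt.toZModPow n a).val • pt N p n u := by
  rw [← map_nsmul]
  refine pt_eq_iff.mpr fun i => ?_
  rw [Pi.smul_apply, Pi.smul_apply, smul_eq_mul, nsmul_eq_mul, map_mul, map_mul, map_natCast,
    ZMod.natCast_zmod_val]

theorem pt_galois (n : ℕ) (σ : Γℚ) (u : Cv N ℤ_[p]) :
    pt N p n (galZp N p σ *ᵥ u) = σ • pt N p n u := by
  have h := galModel_coord N p n σ ⟨pt N p n u, pt_mem n u⟩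
  rw [coordTors_pt] at h
  have h2 : (⟨pt N p n (galZp N p σ *ᵥ u), pt_mem n _⟩ : tors N (p ^ n)) =
      JZero.torsionGaloisRep N (p ^ n) σ ⟨pt N p n u, pt_mem n u⟩ := by
    refine (coordTors N (p ^ n)).injective ?_
    rw [coordTors_pt, h]
    funext i
    exact RingHom.map_mulVec (PadicInt.toZModPow n) _ u i
  exact congrArg Subtype.val h2

theorem pt_succ (n : ℕ) (u : Cv N ℤ_[p]) : p • pt N p (n + 1) u = pt N p n u := by
  have key : ∀ (n' : ℕ) [NeZero n'] (_ : n' = p * p ^ n) (x : tors N n')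
      (hd : p ^ n ∣ n') (hx : p • (x : JZero N) ∈ tors N (p ^ n)),
      coordTors N (p ^ n) ⟨p • (x : JZero N), hx⟩ =
        fun i => ZMod.castHom hd (ZMod (p ^ n)) (coordTors N n' x i) := by
    intro n' _ hn x hd hx
    subst hn
    exact coordTors_nsmul N x hx
  have hx : p • pt N p (n + 1) u ∈ tors N (p ^ n) := by
    rw [Pic0.mem_torsion, natCast_zsmul, smul_smul, ← pow_succ]
    exact (natCast_zsmul _ _).symm.trans (Pic0.mem_torsion.mp (pt_mem (n + 1) u))
  have h2 : (⟨p • pt N p (n + 1) u, hx⟩ : tors N (p ^ n)) = ⟨pt N p n u, pt_mem n u⟩ := by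
    refine (coordTors N (p ^ n)).injective ?_
    rw [coordTors_pt, key (p ^ (n + 1)) (pow_succ' p n) ⟨_, pt_mem (n + 1) u⟩
      (pow_dvd_pow p n.le_succ) hx, coordTors_pt]
    funext i
    exact RingHom.congr_fun (PadicInt.zmod_cast_comp_toZModPow n (n + 1) n.le_succ) (u i)
  exact congrArg Subtype.val h2

theorem pt_natCast_smul (n : ℕ) (u : Cv N ℤ_[p]) :
    pt N p (n + 1) ((p : ℤ_[p]) • u) = pt N p n u := by
  rw [Nat.cast_smul_eq_nsmul, map_nsmul, pt_succ]

/-- A projector onto a saturated lattice. -/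
theorem exists_projector {r : ℕ} (W : Submodule ℤ_[p] (Fin r → ℤ_[p]))
    (hsat : ∀ x, (p : ℤ_[p]) • x ∈ W → x ∈ W) :
    ∃ Q : Matrix (Fin r) (Fin r) ℤ_[p],
      (∀ x, Q *ᵥ x ∈ W) ∧ ∀ x ∈ W, Q *ᵥ x = x := by
  have hsat' : ∀ (k : ℕ) x, (p : ℤ_[p]) ^ k • x ∈ W → x ∈ W := by
    intro k
    induction k with
    | zero => intro x hx; simpa using hx
    | succ k ih => intro x hx; rw [pow_succ, mul_smul] at hx; exact hsat _ (ih _ hx)
  haveI : NoZeroSMulDivisors ℤ_[p] ((Fin r → ℤ_[p]) ⧸ W) := ⟨fun {a z} h => by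
    obtain ⟨x, rfl⟩ := Submodule.Quotient.mk_surjective W z
    rcases eq_or_ne a 0 with ha | ha
    · exact Or.inl ha
    refine Or.inr ((Submodule.Quotient.mk_eq_zero W).mpr (hsat' a.valuation x ?_))
    rw [← Submodule.Quotient.mk_smul, Submodule.Quotient.mk_eq_zero] at h
    have h2 := W.smul_mem ((PadicInt.unitCoeff ha)⁻¹ : ℤ_[p]ˣ).1 h
    rw [smul_smul] at h2
    convert h2 using 2
    conv_rhs => arg 2; rw [PadicInt.unitCoeff_spec ha]
    rw [← mul_assoc, Units.inv_mul, one_mul]⟩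
  haveI : Module.Free ℤ_[p] ((Fin r → ℤ_[p]) ⧸ W) := Module.free_of_finite_type_torsion_free'
  obtain ⟨s, hs⟩ := Module.projective_lifting_property W.mkQ
    (LinearMap.id : ((Fin r → ℤ_[p]) ⧸ W) →ₗ[ℤ_[p]] _) W.mkQ_surjective
  refine ⟨LinearMap.toMatrix' (LinearMap.id - s.comp W.mkQ), fun x => ?_, fun x hx => ?_⟩
  · rw [LinearMap.toMatrix'_mulVec, ← Submodule.Quotient.mk_eq_zero W]
    show W.mkQ (x - s (W.mkQ x)) = 0
    rw [map_sub, ← LinearMap.comp_apply W.mkQ s, hs, LinearMap.id_apply, sub_self]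
  · rw [LinearMap.toMatrix'_mulVec]
    show x - s (W.mkQ x) = x
    rw [show W.mkQ x = 0 from (Submodule.Quotient.mk_eq_zero W).mpr hx, map_zero, sub_zero]

/-- The matrix of a map of Jacobians on the Tate modules. -/
theorem exists_padicMat {M : ℕ} [NeZero M] (f : JZero N →+ JZero M) :
    ∃ P : Matrix (Fin (Period.rankH M)) (Fin (Period.rankH N)) ℤ_[p],
      ∀ n u, pt M p n (P *ᵥ u) = f (pt N p n u) := by
  have hcol : ∀ j, ∃ v : Cv M ℤ_[p], ∀ n, pt M p n v = f (pt N p n (Pi.single j 1)) := by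
    intro j
    have hmem : ∀ n, f (pt N p n (Pi.single j 1)) ∈ tors M (p ^ n) := fun n => by
      rw [Pic0.mem_torsion, ← map_zsmul, Pic0.mem_torsion.mp (pt_mem n _), map_zero]
    have hex : ∀ n, ∃ w : Cv M ℤ_[p], pt M p n w = f (pt N p n (Pi.single j 1)) := fun n =>
      exists_pt_eq (hmem n)
    choose w hw using hex
    have hcompat : ∀ n i, PadicInt.toZModPow n (w (n + 1) i) = PadicInt.toZModPow n (w n i) := by
      intro n
      refine pt_eq_iff.mp ?_
      rw [← pt_succ, hw, ← map_nsmul, pt_succ, hw]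
    have hdvd : ∀ i n, (p : ℤ) ^ n ∣ ((PadicInt.toZModPow (n + 1) (w (n + 1) i)).val : ℤ) -
        ((PadicInt.toZModPow n (w n i)).val : ℤ) := by
      intro i n
      rw [← Nat.cast_pow, ← ZMod.intCast_zmod_eq_zero_iff_dvd, Int.cast_sub, Int.cast_natCast,
        Int.cast_natCast, ZMod.natCast_zmod_val, sub_eq_zero,
        ← map_natCast (ZMod.castHom (pow_dvd_pow p n.le_succ) (ZMod (p ^ n))),
        ZMod.natCast_zmod_val, ← hcompat n i]
      exact RingHom.congr_fun (PadicInt.zmod_cast_comp_toZModPow n (n + 1) n.le_succ) _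
    refine ⟨fun i => PadicInt.ofIntSeq _ (PadicInt.isCauSeq_padicNorm_of_pow_dvd_sub
      (fun n => ((PadicInt.toZModPow n (w n i)).val : ℤ)) p (hdvd i)), fun n => ?_⟩
    rw [← hw n]
    refine pt_eq_iff.mpr fun i => ?_
    refine (PadicInt.toZModPow_ofIntSeq_of_pow_dvd_sub _ p (hdvd i) n).trans ?_
    rw [Int.cast_natCast, ZMod.natCast_zmod_val]
  choose v hv using hcol
  refine ⟨Matrix.of fun i j => v j i, fun n u => ?_⟩
  have hu : u = ∑ j, u j • (Pi.single j 1 : Cv N ℤ_[p]) := by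
    funext i
    simp [Finset.sum_apply, Pi.single_apply]
  have hP : (Matrix.of fun i j => v j i) *ᵥ u = ∑ j, u j • v j := by
    funext i
    simp [Matrix.mulVec, dotProduct, Finset.sum_apply, mul_comm]
  rw [hP, map_sum]
  conv_rhs => rw [hu, map_sum, map_sum]
  refine Finset.sum_congr rfl fun j _ => ?_
  rw [pt_smul, pt_smul, hv, map_nsmul]

/-- The Frobenius relation for the integral Hecke matrix. -/
theorem heckeAt_eq {l : Nat.Primes} (hlN : ¬ (l : ℕ) ∣ N) (hlp : (l : ℕ) ≠ p)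
    {A : ValuationSubring Qb} (hA : A.LiesOverPrime (l : ℕ)) {σ : Γℚ}
    (hσ : A.IsFrobeniusAt σ (l : ℕ)) :
    (heckeAt N l).map (Int.castRingHom ℤ_[p]) =
      galZp N p σ + ((l : ℕ) : ℤ_[p]) • galZp N p σ⁻¹ := by
  have h := (galModel N p).frobenius_rel (l : ℕ) l.2 hlN hlp A hA σ hσ
  rw [← heckeGenOf_T N l.2 hlN] at h
  change galZp N p σ * galZp N p σ - (heckeAt N l).map (Int.castRingHom ℤ_[p]) * galZp N p σ +
    ((l : ℕ) : Cm N ℤ_[p]) = 0 at h
  have h2 := congrArg (· * galZp N p σ⁻¹) h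
  simp only [add_mul, sub_mul, zero_mul, mul_assoc, ← map_mul, mul_inv_cancel, map_one,
    mul_one] at h2
  rw [sub_add_eq_add_sub, sub_eq_zero] at h2
  rw [← h2, Nat.cast_smul_eq_nsmul, nsmul_eq_mul]

variable {M : ℕ} [NeZero M]

/-- An equivariant matrix commutes with the Hecke operators at good primes. -/
theorem mul_heckeAt {P : Matrix (Fin (Period.rankH M)) (Fin (Period.rankH N)) ℤ_[p]}
    (hP : ∀ σ, P * galZp N p σ = galZp M p σ * P) {l : Nat.Primes} (hlN : ¬ (l : ℕ) ∣ N)
    (hlM : ¬ (l : ℕ) ∣ M) (hlp : (l : ℕ) ≠ p) :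
    P * (heckeAt N l).map (Int.castRingHom ℤ_[p]) =
      (heckeAt M l).map (Int.castRingHom ℤ_[p]) * P := by
  obtain ⟨A, hA, σ, hσ⟩ := GalCommon.exists_place_frobenius l.2
  rw [heckeAt_eq hlN hlp hA hσ, heckeAt_eq hlM hlp hA hσ, Matrix.mul_add, Matrix.add_mul,
    Matrix.mul_smul, Matrix.smul_mul, hP, hP]

/-- The matrix of a Galois equivariant map of Jacobians. -/
theorem exists_equivariant_padicMat (f : JZero N →+ JZero M)
    (hf : ∀ (σ : Γℚ) (z : JZero N), f (σ • z) = σ • f z) :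
    ∃ P : Matrix (Fin (Period.rankH M)) (Fin (Period.rankH N)) ℤ_[p],
      (∀ n u, pt M p n (P *ᵥ u) = f (pt N p n u)) ∧
      ∀ σ, P * galZp N p σ = galZp M p σ * P := by
  obtain ⟨P, hP⟩ := exists_padicMat (p := p) f
  refine ⟨P, hP, fun σ => Matrix.mulVec_injective (funext fun u => eq_of_forall_pt fun n => ?_)⟩
  rw [← Matrix.mulVec_mulVec, ← Matrix.mulVec_mulVec, hP, pt_galois, hf, pt_galois, hP]

/-- Pushforward of divisor classes along an embedding of function fields. -/
def pushPic (φ : modularFunctionFieldBar M →ₐ[Qb] modularFunctionFieldBar N)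
    (hφ : φ.toRingHom.IsIntegral) : JZero N →+ JZero M :=
  QuotientAddGroup.map _ _
    (((Divisor.pushforwardAlong φ hφ).domRestrict _).codRestrict _
      fun D => Divisor.pushforwardAlong_mem_degZero φ hφ D.2)
    fun D hD => by
      haveI := Kronecker.isFF_bar M
      haveI := Kronecker.isFF_bar N
      have hfin : FiniteAlong Qb φ := FF.finiteAlong φ
      have hN : NormFormulaAlong Qb φ hfin := FF.normFormulaAlong φ hfin (FF.separableAlong φ)
      rw [AddSubgroup.mem_comap, AddSubgroup.mem_addSubgroupOf]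
      exact Divisor.isPrincipal_pushforwardAlong φ hφ hfin hN hD

theorem pushPic_mk_eq_zero {φ : modularFunctionFieldBar M →ₐ[Qb] modularFunctionFieldBar N}
    {hφ : φ.toRingHom.IsIntegral}
    {D : Divisor.degZero (K := Qb) (F := modularFunctionFieldBar N)}
    (h : pushPic φ hφ (Pic0.mk D) = 0) :
    Divisor.pushforwardAlong φ hφ (D : Divisor Qb (modularFunctionFieldBar N)) ∈
      Divisor.principal (K := Qb) (F := modularFunctionFieldBar M) := by
  have h' : Pic0.mk (⟨Divisor.pushforwardAlong φ hφ (D : Divisor Qb (modularFunctionFieldBar N)),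
      Divisor.pushforwardAlong_mem_degZero φ hφ D.2⟩ :
      Divisor.degZero (K := Qb) (F := modularFunctionFieldBar M)) = 0 := h
  rw [Pic0.mk, QuotientAddGroup.eq_zero_iff, AddSubgroup.mem_addSubgroupOf] at h'
  exact h'

theorem pushPic_galois (φ : modularFunctionFieldBar M →ₐ[Qb] modularFunctionFieldBar N)
    (hφ : φ.toRingHom.IsIntegral)
    (hint : ∀ σ : Γℚ, SemilinearAut.IntertwinesAlong φ.toRingHom
      (arithmeticGalois (modularFunctionFieldFull M) σ)
      (arithmeticGalois (modularFunctionFieldFull N) σ)) (σ : Γℚ) (z : JZero N) :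
    pushPic φ hφ (σ • z) = σ • pushPic φ hφ z := by
  obtain ⟨D, rfl⟩ := Pic0.mk_surjective z
  rw [galois_smul_pic0_def, galois_smul_pic0_def, SemilinearAut.pic0_smul_mk]
  show Pic0.mk _ = arithmeticGalois (modularFunctionFieldFull M) σ • Pic0.mk _
  rw [SemilinearAut.pic0_smul_mk]
  exact congrArg Pic0.mk (Subtype.ext (Kronecker.pushforwardAlong_smul φ hφ (hint σ)
    (Kronecker.deg_eq_one_bar M) (Kronecker.deg_eq_one_bar N) _))

end FLTAgent.OrdP
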