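import Fermat.Agent.OrdP.Residual
import Fermat.Agent.MazurP.Main
import Fermat.Agent.BadOdd.Monodromy
import Fermat.Agent.Lower.Lift.HopP.Good

/-!
# Monodromy on the residually ordinary part at level `M p`

`topNil` is the space of `p`-adic vectors topologically in a residual eigenspace. On it
`exists_exponent` gives `e` with `(τ₀ + 1) ^ e n * (σ - 1)` divisible by `ϖ ^ n` for `σ` in inertia.
The vectors `(σ - 1) y` lie in the lattice of good classes (`goodLat_monodromy`), and their two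
pushforwards to level `M` in the lattice reducing to zero (`redLat_monodromy`), where powers of
`τ₀ + 1` shrink them (`pow_mem_small_redLat`, from the residual statement); good classes with
small pushforwards are then shrunk as well (`pow_mem_small_goodLat`).
-/

set_option autoImplicit false
set_option linter.unusedSectionVars false
set_option linter.style.haveILetI false
set_option maxHeartbeats 800000
set_option synthInstance.maxHeartbeats 200000

noncomputable section

open ModularCurve AlgebraicCurve Matrix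
open IsLocalRing (maximalIdeal residue ResidueField)

namespace FLTAgent.OrdP

open FLTAgent.Reps FLTAgent.TW FLTAgent.LocP
open FLTAgent.Lower.Lift.HopP (galF heckeF toF coordAlong RedZero TorsCoord torsPoint)

local notation "Qb" => AlgebraicClosure ℚ
local notation "Γℚ" => (AlgebraicClosure ℚ ≃ₐ[ℚ] AlgebraicClosure ℚ)

variable {p : ℕ} [Fact p.Prime]

/-- Good classes with power reductions killed by both pushforwards are moved by inertia through
the cyclotomic character. -/
theorem smul_eq_of_good {M : ℕ} [NeZero M] [NeZero p] (A : ValuationSubring Qb) (hp : p.Prime)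
    (hpM : ¬ p ∣ M) (hA : A.LiesOverPrime p) {z : JZero (M * p)}
    (gd : (BadOdd.dat A hp hpM hA).Good p z)
    (hα : (heckeAlphaBar Qb M p).toRingHom.IsIntegral)
    (hβ : (heckeBetaBar Qb M p).toRingHom.IsIntegral)
    (hpα : pushPic (heckeAlphaBar Qb M p) hα z = 0) (hpβ : pushPic (heckeBetaBar Qb M p) hβ z = 0)
    {τ : Γℚ} (hτ : τ ∈ A.inertiaSubgroupIn ℚ) {ζ : Qb} (hζ : IsPrimitiveRoot ζ p) {a : ℕ}
    (ha : τ ζ = ζ ^ a) : τ • z = a • z := by
  haveI := GalCommon.isAlgClosed_residueField A hp hA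
  obtain ⟨T⟩ := MazurP.nonempty_modFrame A hp hpM hA
  obtain ⟨Z, f, w1, w0, hrep, hmem, hw1, hw0, hred⟩ := gd
  obtain rfl := hrep.mk_eq
  have hdiv : ∀ v : Place Qb (modularFunctionFieldBar (M * p)),
      v.ord f = (p : ℤ) * (Z : Divisor Qb (modularFunctionFieldBar (M * p))) v := fun v => by
    have h := DFunLike.congr_fun hrep.div_eq v
    rw [Finsupp.smul_apply, smul_eq_mul, T.Fr.curve.divOf_apply] at h
    exact h.symm
  have hpp : ∀ b, T.Fr.IsPP b f
    | false => ⟨1, w1, one_ne_zero, hw1, by rw [one_smul, T.G_false]; exact hmem.1,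
        by rw [one_smul, T.G_false]; exact congrArg Prod.fst hred⟩
    | true => ⟨1, w0, one_ne_zero, hw0, by rw [one_smul, T.G_true]; exact hmem.2,
        by rw [one_smul, T.G_true]; exact congrArg Prod.snd hred⟩
  have hN : ∀ b, ∃ X, T.Fr.N b f = X ^ p
    | false => by
      rw [T.N_false]
      exact MazurP.exists_normBack_eq_pow _ hα Z hrep.ne_zero hdiv (pushPic_mk_eq_zero hpα)
    | true => by
      rw [T.N_true]
      exact MazurP.exists_normBack_eq_pow _ hβ Z hrep.ne_zero hdiv (pushPic_mk_eq_zero hpβ)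
  have hmain := T.Fr.act_sub_smul_principal _ Z.2 hdiv hpp hN hτ hζ ha
  rw [T.act_eq] at hmain
  rw [galois_smul_pic0_def, SemilinearAut.pic0_smul_mk,
    show a • Pic0.mk Z = Pic0.mk (a • Z) from rfl]
  refine (QuotientAddGroup.eq_iff_sub_mem).mpr (AddSubgroup.mem_addSubgroupOf.mpr ?_)
  rw [AddSubgroupClass.coe_sub, SemilinearAut.coe_degZeroSMulHom, AddSubgroupClass.coe_nsmul]
  exact hmain

/-- The vectors all whose torsion points reduce to zero. -/
def redLat (N : ℕ) [NeZero N] (A : ValuationSubring Qb) : Submodule ℤ_[p] (Cv N ℤ_[p]) where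
  carrier := {u | ∀ n, reductionModL A N (pt N p n u) = 0}
  zero_mem' := fun n => by rw [map_zero, map_zero]
  add_mem' := fun {u v} hu hv n => by rw [map_add, map_add, hu n, hv n, add_zero]
  smul_mem' := fun x u hu n => by rw [pt_smul, map_nsmul, hu n, smul_zero]

theorem redLat_sat (N : ℕ) [NeZero N] (A : ValuationSubring Qb) (u : Cv N ℤ_[p])
    (hu : (p : ℤ_[p]) • u ∈ redLat N A) : u ∈ redLat N A := fun n => by
  rw [← pt_natCast_smul]
  exact hu (n + 1)

theorem redLat_monodromy {N : ℕ} [NeZero N] {A : ValuationSubring Qb} (hpN : ¬ p ∣ N)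
    (hA : A.LiesOverPrime p) {σ : Γℚ} (hσ : σ ∈ A.inertiaSubgroupIn ℚ) (u : Cv N ℤ_[p]) :
    (galZp N p σ - 1) *ᵥ u ∈ redLat (p := p) N A := fun n => by
  obtain ⟨g, rfl, hg⟩ := Kronecker.resAut_eq_one_of_mem_inertia hσ
  rw [sub_mulVec, one_mulVec, map_sub, pt_galois, map_sub,
    Kronecker.reductionModL_smul (Kronecker.reductionInputs N Fact.out hpN hA), hg, map_one,
    one_smul, sub_self]

section GoodLat

variable (A : ValuationSubring Qb) {M : ℕ} [NeZero M] [NeZero p] (hp : p.Prime) (hpM : ¬ p ∣ M)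
  (hA : A.LiesOverPrime p)

/-- The vectors all whose torsion points are good. -/
def goodLat : Submodule ℤ_[p] (Cv (M * p) ℤ_[p]) where
  carrier := {u | ∀ n, Nonempty ((BadOdd.dat A hp hpM hA).Good (p ^ n) (pt (M * p) p n u))}
  zero_mem' := fun n => by
    haveI := GalCommon.isAlgClosed_residueField A hp hA
    rw [map_zero]
    exact Lift.Data.nonempty_good_zero (pow_ne_zero _ hp.ne_zero)
  add_mem' := fun {u v} hu hv n => by
    haveI := GalCommon.isAlgClosed_residueField A hp hA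
    obtain ⟨a⟩ := hu n
    obtain ⟨b⟩ := hv n
    rw [map_add]
    exact ⟨a.add b⟩
  smul_mem' := fun x u hu n => by
    haveI := GalCommon.isAlgClosed_residueField A hp hA
    rw [pt_smul]
    induction (PadicInt.toZModPow n x).val with
    | zero => rw [zero_nsmul]; exact Lift.Data.nonempty_good_zero (pow_ne_zero _ hp.ne_zero)
    | succ i ih =>
      obtain ⟨a⟩ := ih
      obtain ⟨b⟩ := hu n
      rw [succ_nsmul]
      exact ⟨a.add b⟩

theorem goodLat_sat (u : Cv (M * p) ℤ_[p]) (hu : (p : ℤ_[p]) • u ∈ goodLat A hp hpM hA) :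
    u ∈ goodLat A hp hpM hA := fun n => by
  haveI := GalCommon.isAlgClosed_residueField A hp hA
  obtain ⟨gd⟩ := hu (n + 1)
  rw [pt_natCast_smul] at gd
  exact gd.of_torsion (pow_succ p n) (pow_ne_zero _ hp.ne_zero) (pt_mem n u)

theorem goodLat_monodromy {σ : Γℚ} (hσ : σ ∈ A.inertiaSubgroupIn ℚ) (u : Cv (M * p) ℤ_[p]) :
    (galZp (M * p) p σ - 1) *ᵥ u ∈ goodLat A hp hpM hA := fun n => by
  haveI := GalCommon.isAlgClosed_residueField A hp hA
  rw [sub_mulVec, one_mulVec, map_sub, pt_galois, galois_smul_pic0_def]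
  exact (BadQ.compat_inertia A M p hp hpM hA (BadOdd.hgen A hp hpM hA) hσ).exists_good_sub
    (pow_ne_zero n hp.ne_zero) (pt_mem n u)

end GoodLat

section Coeff

variable {O : Type} [CommRing O] [IsDomain O] [IsDiscreteValuationRing O]
  [IsAdicComplete (maximalIdeal O) O] [CharZero O] (hpO : (p : O) ∈ maximalIdeal O)

/-- The Galois matrices in `O`. -/
def galO (N : ℕ) [NeZero N] : Γℚ →* Cm N O :=
  (padicHom (maximalIdeal O) hpO).mapMatrix.toMonoidHom.comp (galZp N p)

theorem galO_apply (N : ℕ) [NeZero N] (σ : Γℚ) :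
    galO hpO N σ = (galZp N p σ).map (padicHom (maximalIdeal O) hpO) := rfl

/-- The vectors with entries in a power of the maximal ideal. -/
def smallSub (O : Type) [CommRing O] [IsLocalRing O] (r n : ℕ) : Submodule O (Fin r → O) :=
  Submodule.pi Set.univ fun _ => (maximalIdeal O ^ n : Ideal O)

theorem mem_smallSub {r n : ℕ} {x : Fin r → O} :
    x ∈ smallSub O r n ↔ ∀ i, x i ∈ maximalIdeal O ^ n := by
  simp [smallSub]

theorem mulVec_mem_smallSub {r s n : ℕ} (X : Matrix (Fin s) (Fin r) O) {x : Fin r → O}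
    (hx : x ∈ smallSub O r n) : X *ᵥ x ∈ smallSub O s n := by
  rw [mem_smallSub] at hx ⊢
  exact fun i => show ∑ j, X i j * x j ∈ _ from
    Ideal.sum_mem _ fun j _ => Ideal.mul_mem_left _ (X i j) (hx j)

/-- The reduction of a vector. -/
abbrev redVec {r : ℕ} (x : Fin r → O) : Fin r → ResidueField O := fun i => residue O (x i)

theorem redVec_mulVec {r s : ℕ} (X : Matrix (Fin s) (Fin r) O) (x : Fin r → O) :
    redVec (X *ᵥ x) = X.map (residue O) *ᵥ redVec x :=
  funext fun i => RingHom.map_mulVec (residue O) X x i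

theorem redVec_eq_zero_iff {r : ℕ} {x : Fin r → O} :
    redVec x = 0 ↔ x ∈ smallSub O r 1 := by
  simp [mem_smallSub, funext_iff, IsLocalRing.residue_eq_zero_iff]

variable [CharP (ResidueField O) p]

theorem residue_padicHom (x : ℤ_[p]) :
    residue O (padicHom (maximalIdeal O) hpO x) =
      toF p (ResidueField O) (PadicInt.toZModPow 1 x) := by
  haveI : NeZero (p ^ 1) := ⟨pow_ne_zero _ (Fact.out : p.Prime).ne_zero⟩
  set k := (PadicInt.toZModPow 1 x).val
  have h : x - (k : ℤ_[p]) ∈ RingHom.ker (PadicInt.toZModPow 1 : ℤ_[p] →+* ZMod (p ^ 1)) := by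
    rw [RingHom.mem_ker, map_sub, map_natCast, ZMod.natCast_zmod_val, sub_self]
  rw [PadicInt.ker_toZModPow, pow_one, Ideal.mem_span_singleton] at h
  obtain ⟨y, hy⟩ := h
  rw [eq_add_of_sub_eq hy, map_add, map_mul, map_add, map_mul, map_natCast, map_natCast,
    map_natCast, map_natCast, CharP.cast_eq_zero (ResidueField O) p, zero_mul, zero_add]
  conv_rhs => rw [← hy, sub_add_cancel, ← ZMod.natCast_zmod_val (PadicInt.toZModPow 1 x),
    map_natCast]

theorem map_residue_padic {r s : ℕ} (X : Matrix (Fin s) (Fin r) ℤ_[p]) :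
    (X.map (padicHom (maximalIdeal O) hpO)).map (residue O) =
      (X.map (PadicInt.toZModPow 1)).map (toF p (ResidueField O)) := by
  ext i j
  exact residue_padicHom hpO _

theorem galO_residue (N : ℕ) [NeZero N] (σ : Γℚ) :
    (galO hpO N σ).map (residue O) = galF N p (ResidueField O) σ := by
  rw [galO_apply, map_residue_padic]
  exact congrArg (fun Y : Cm N (ZMod (p ^ 1)) => Y.map (toF p (ResidueField O)))
    (toZModPow_tateMat N p 1 σ)

theorem coordAlong_map_mulVec {r s : ℕ} (c : ResidueField O →+ ZMod (p ^ 1))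
    (X : Matrix (Fin s) (Fin r) (ZMod (p ^ 1))) (v : Fin r → ResidueField O) :
    (fun i => c ((X.map (toF p (ResidueField O)) *ᵥ v) i)) = X *ᵥ fun j => c (v j) := by
  funext i
  show c (∑ j, toF p (ResidueField O) (X i j) * v j) = ∑ j, X i j * c (v j)
  simp only [map_sum, Lower.Lift.HopP.map_toF_mul]

/-- Points of a vector fixed by a projector come from the lattice. -/
theorem exists_lat_lift {r : ℕ} {W : Submodule ℤ_[p] (Fin r → ℤ_[p])}
    {Q : Matrix (Fin r) (Fin r) ℤ_[p]} (hQ : ∀ u, Q *ᵥ u ∈ W) {x : Fin r → O}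
    (hx : Q.map (padicHom (maximalIdeal O) hpO) *ᵥ x = x) (c : ResidueField O →+ ZMod (p ^ 1)) :
    ∃ u ∈ W, (fun i => PadicInt.toZModPow 1 (u i)) = fun i => c (redVec x i) := by
  have hs : ∀ a : ZMod (p ^ 1), ∃ z : ℤ_[p], PadicInt.toZModPow 1 z = a := fun a =>
    ⟨(a.val : ℤ_[p]), by
      haveI : NeZero (p ^ 1) := ⟨pow_ne_zero _ (Fact.out : p.Prime).ne_zero⟩
      rw [map_natCast, ZMod.natCast_zmod_val]⟩
  choose s hs using hs
  refine ⟨Q *ᵥ fun j => s (c (redVec x j)), hQ _, ?_⟩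
  conv_rhs => rw [← hx, redVec_mulVec, map_residue_padic, coordAlong_map_mulVec]
  funext i
  rw [RingHom.map_mulVec (PadicInt.toZModPow (p := p) 1)]
  congr 1
  exact funext fun j => hs _

theorem proj_add_one {r : ℕ} {Q G : Matrix (Fin r) (Fin r) ℤ_[p]} (hQ : Q * (G - 1) = G - 1)
    {x : Fin r → O} (hx : Q.map (padicHom (maximalIdeal O) hpO) *ᵥ x = x) :
    Q.map (padicHom (maximalIdeal O) hpO) *ᵥ
        ((G.map (padicHom (maximalIdeal O) hpO) + 1) *ᵥ x) =
      (G.map (padicHom (maximalIdeal O) hpO) + 1) *ᵥ x := by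
  set i := (padicHom (maximalIdeal O) hpO).mapMatrix (m := Fin r)
  have h := congrArg i hQ
  rw [map_mul, map_sub, map_one] at h
  change i Q *ᵥ ((i G + 1) *ᵥ x) = (i G + 1) *ᵥ x
  change i Q *ᵥ x = x at hx
  rw [show i G + 1 = (i G - 1) + 2 by rw [← one_add_one_eq_two]; abel, add_mulVec, mulVec_add,
    mulVec_mulVec, h, Matrix.ofNat_mulVec, mulVec_smul, hx]

theorem pow_add_one_proj {r : ℕ} {Q G : Matrix (Fin r) (Fin r) ℤ_[p]} (hQ : Q * (G - 1) = G - 1)
    {x : Fin r → O} (hx : Q.map (padicHom (maximalIdeal O) hpO) *ᵥ x = x) (k : ℕ) :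
    Q.map (padicHom (maximalIdeal O) hpO) *ᵥ
        ((G.map (padicHom (maximalIdeal O) hpO) + 1) ^ k *ᵥ x) =
      (G.map (padicHom (maximalIdeal O) hpO) + 1) ^ k *ᵥ x := by
  induction k with
  | zero => rwa [pow_zero, one_mulVec]
  | succ k ih => rw [pow_succ', ← mulVec_mulVec]; exact proj_add_one hpO hQ ih

theorem exists_div_uniformizer {ϖ₀ : O} (hϖ : Irreducible ϖ₀) {r : ℕ} {x : Fin r → O}
    (hx : x ∈ smallSub O r 1) : ∃ y : Fin r → O, x = ϖ₀ • y := by
  have h : ∀ i, ∃ y, x i = ϖ₀ * y := fun i => by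
    have := mem_smallSub.mp hx i
    rw [pow_one, hϖ.maximalIdeal_eq, Ideal.mem_span_singleton] at this
    exact this
  choose y hy using h
  exact ⟨y, funext fun i => hy i⟩

theorem smul_mem_smallSub {ϖ₀ : O} (hϖ : Irreducible ϖ₀) {r n : ℕ} {y : Fin r → O} :
    ϖ₀ • y ∈ smallSub O r (n + 1) ↔ y ∈ smallSub O r n := by
  rw [mem_smallSub, mem_smallSub]
  refine forall_congr' fun i => ?_
  rw [hϖ.maximalIdeal_eq, Ideal.span_singleton_pow, Ideal.span_singleton_pow,
    Ideal.mem_span_singleton, Ideal.mem_span_singleton, Pi.smul_apply, smul_eq_mul, pow_succ']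
  exact mul_dvd_mul_iff_left hϖ.ne_zero

variable {S : Finset ℕ} (ã : Fam S → O)

/-- The Hecke operator minus the lifted eigenvalue. -/
def devO (N : ℕ) [NeZero N] (l : Fam S) : Cm N O :=
  (heckeAt N l.1).map (Int.castRingHom O) - ã l • 1

/-- The vectors on which all these operators are topologically nilpotent. -/
def topNil (N : ℕ) [NeZero N] : Submodule O (Cv N O) where
  carrier := {x | ∀ (l : Fam S) (n : ℕ),
    ∃ K, ∀ K' ≥ K, (devO ã N l ^ K') *ᵥ x ∈ smallSub O _ n}
  zero_mem' := fun l n => ⟨0, fun K' _ => by rw [mulVec_zero]; exact zero_mem _⟩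
  add_mem' := fun {x y} hx hy l n => by
    obtain ⟨K, hK⟩ := hx l n
    obtain ⟨K', hK'⟩ := hy l n
    exact ⟨max K K', fun j hj => by
      rw [mulVec_add]
      exact add_mem (hK j (le_trans (le_max_left _ _) hj))
        (hK' j (le_trans (le_max_right _ _) hj))⟩
  smul_mem' := fun c x hx l n => by
    obtain ⟨K, hK⟩ := hx l n
    exact ⟨K, fun j hj => by rw [mulVec_smul]; exact (smallSub O _ n).smul_mem c (hK j hj)⟩

theorem topNil_div {N : ℕ} [NeZero N] {ϖ₀ : O} (hϖ : Irreducible ϖ₀) {y : Cv N O}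
    (hy : ϖ₀ • y ∈ topNil ã N) : y ∈ topNil ã N := fun l n => by
  obtain ⟨K, hK⟩ := hy l (n + 1)
  refine ⟨K, fun j hj => (smul_mem_smallSub hϖ).mp ?_⟩
  rw [← mulVec_smul]
  exact hK j hj

theorem topNil_map {N M : ℕ} [NeZero N] [NeZero M]
    (X : Matrix (Fin (Period.rankH M)) (Fin (Period.rankH N)) O)
    (hX : ∀ l, X * devO ã N l = devO ã M l * X) {x : Cv N O} (hx : x ∈ topNil ã N) :
    X *ᵥ x ∈ topNil ã M := fun l n => by
  obtain ⟨K, hK⟩ := hx l n
  refine ⟨K, fun j hj => ?_⟩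
  have hpow : ∀ j : ℕ, X * devO ã N l ^ j = devO ã M l ^ j * X := by
    intro j
    induction j with
    | zero => rw [pow_zero, pow_zero, Matrix.mul_one, Matrix.one_mul]
    | succ j ih =>
      rw [pow_succ, pow_succ, ← Matrix.mul_assoc, ih, Matrix.mul_assoc, hX, Matrix.mul_assoc]
  rw [mulVec_mulVec, ← hpow, ← mulVec_mulVec]
  exact mulVec_mem_smallSub X (hK j hj)

theorem galO_commute_devO (N : ℕ) [NeZero N] (σ : Γℚ) (l : Fam S) :
    Commute (galO hpO N σ) (devO ã N l) := by
  have h := ((galModel N p).commute_hecke σ (heckeGenOf N l.1)).map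
    (padicHom (maximalIdeal O) hpO).mapMatrix
  have e : (padicHom (maximalIdeal O) hpO).mapMatrix
      ((Int.castRingHom ℤ_[p]).mapMatrix (heckeAt N l.1)) =
        (heckeAt N l.1).map (Int.castRingHom O) := by
    ext i j; simp
  change Commute (galO hpO N σ) ((padicHom (maximalIdeal O) hpO).mapMatrix
    ((Int.castRingHom ℤ_[p]).mapMatrix (heckeAt N l.1))) at h
  rw [e] at h
  exact h.sub_right ((Commute.one_right _).smul_right _)

theorem devO_residue (N : ℕ) [NeZero N] (l : Fam S) :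
    (devO ã N l).map (residue O) = devMat N (fun l => residue O (ã l)) l := by
  show (residue O).mapMatrix (devO ã N l) = _
  rw [devO, map_sub, devMat]
  congr 1
  ext i j
  by_cases h : i = j <;> simp [h]

theorem redVec_mem_genEig {N : ℕ} [NeZero N] {x : Cv N O} (hx : x ∈ topNil ã N) :
    redVec x ∈ genEig N fun l => residue O (ã l) := by
  refine mem_genEig_of_exists fun l => ?_
  obtain ⟨K, hK⟩ := hx l 1
  refine ⟨K, ?_⟩
  rw [← devO_residue, ← RingHom.mapMatrix_apply, ← map_pow, RingHom.mapMatrix_apply,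
    ← redVec_mulVec, redVec_eq_zero_iff]
  exact hK K le_rfl

variable [Finite (ResidueField O)] {Mb : Deform.MatRep (ResidueField O)}
  {A : ValuationSubring Qb} {ϖ ζ : Qb} {τ₀ : Γℚ}

/-- Level prime to `p`: powers of `τ₀ + 1` shrink the vectors reducing to zero. -/
theorem pow_mem_small_redLat (h : SysData p Mb fun l => residue O (ã l)) (hp2 : p ≠ 2) {N : ℕ}
    [NeZero N] (hpN : ¬ p ∣ N) (hNS : ∀ q : ℕ, q.Prime → q ∣ N → q ∈ S) (hA : A.LiesOverPrime p)
    (hN : RedNormal Mb A p ϖ ζ τ₀) {Q : Cm N ℤ_[p]}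
    (hQ : ∀ u, Q *ᵥ u ∈ redLat (p := p) N A) (hQτ : Q * (galZp N p τ₀ - 1) = galZp N p τ₀ - 1)
    {ϖ₀ : O} (hϖ : Irreducible ϖ₀) :
    ∀ (n : ℕ) (x : Cv N O), x ∈ topNil ã N →
      Q.map (padicHom (maximalIdeal O) hpO) *ᵥ x = x →
      (galO hpO N τ₀ + 1) ^ (Period.rankH N * n) *ᵥ x ∈ smallSub O _ n := by
  intro n
  induction n with
  | zero => intro x _ _; simp [mem_smallSub]
  | succ n ih =>
    intro x hx hxQ
    set G := galO hpO N τ₀ + 1 with hG
    set y := G ^ Period.rankH N *ᵥ x with hy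
    have hyT : y ∈ topNil ã N := topNil_map ã _ (fun l => (((galO_commute_devO hpO ã N τ₀ l)).add_left
      (Commute.one_left _)).pow_left _) hx
    have hyQ : Q.map (padicHom (maximalIdeal O) hpO) *ᵥ y = y := pow_add_one_proj hpO hQτ hxQ _
    have hres : redVec y = 0 := by
      rw [hy, redVec_mulVec, ← RingHom.mapMatrix_apply, map_pow, hG, map_add, map_one,
        RingHom.mapMatrix_apply, galO_residue]
      refine h.pow_add_one_redZero hp2 hpN hNS hA hN (fun v hv c => ?_) (redVec_mem_genEig ã hx)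
        fun c => ?_
      · rw [Lower.Lift.HopP.coordAlong_galF, Lower.Lift.HopP.torsPoint_act]
        obtain ⟨g, hgτ, hg1⟩ := Kronecker.resAut_eq_one_of_mem_inertia hN.tau_mem
        rw [← hgτ, Kronecker.reductionModL_smul (Kronecker.reductionInputs N Fact.out hpN hA), hg1,
          map_one, one_smul, hv c]
      · obtain ⟨u, hu, huc⟩ := exists_lat_lift hpO hQ hxQ c
        have := hu 1
        change reductionModL A N (torsPoint N p fun i => PadicInt.toZModPow 1 (u i)) = 0 at this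
        rw [huc] at this
        exact this
    obtain ⟨y', hy'⟩ := exists_div_uniformizer hϖ (redVec_eq_zero_iff.mp hres)
    have hy'Q : Q.map (padicHom (maximalIdeal O) hpO) *ᵥ y' = y' := by
      rw [hy', mulVec_smul] at hyQ
      exact smul_right_injective _ hϖ.ne_zero hyQ
    rw [mul_add, mul_one, pow_add, ← mulVec_mulVec, ← hy, hy', mulVec_smul,
      smul_mem_smallSub hϖ]
    exact ih y' (topNil_div ã hϖ (hy' ▸ hyT)) hy'Q

/-- Good vectors killed by both pushforwards to a power of the uniformiser shrink under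
`τ₀ + 1`. -/
theorem pow_mem_small_goodLat {M : ℕ} [NeZero M] [NeZero p] (hpM : ¬ p ∣ M)
    (hA : A.LiesOverPrime p) (hτ : τ₀ ∈ A.inertiaSubgroupIn ℚ) (hζ : IsPrimitiveRoot ζ p) {a : ℕ}
    (ha : τ₀ ζ = ζ ^ a) (ha1 : p ∣ a + 1)
    {Q : Cm (M * p) ℤ_[p]} (hQ : ∀ u, Q *ᵥ u ∈ goodLat A Fact.out hpM hA)
    (hQτ : Q * (galZp (M * p) p τ₀ - 1) = galZp (M * p) p τ₀ - 1)
    {hα : (heckeAlphaBar Qb M p).toRingHom.IsIntegral}
    {hβ : (heckeBetaBar Qb M p).toRingHom.IsIntegral}
    {Pα Pβ : Matrix (Fin (Period.rankH M)) (Fin (Period.rankH (M * p))) ℤ_[p]}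
    (hPα : ∀ n u, pt M p n (Pα *ᵥ u) = pushPic (heckeAlphaBar Qb M p) hα (pt (M * p) p n u))
    (hPβ : ∀ n u, pt M p n (Pβ *ᵥ u) = pushPic (heckeBetaBar Qb M p) hβ (pt (M * p) p n u))
    (hPαg : ∀ σ, Pα * galZp (M * p) p σ = galZp M p σ * Pα)
    (hPβg : ∀ σ, Pβ * galZp (M * p) p σ = galZp M p σ * Pβ)
    {ϖ₀ : O} (hϖ : Irreducible ϖ₀) :
    ∀ (n : ℕ) (x : Cv (M * p) O), Q.map (padicHom (maximalIdeal O) hpO) *ᵥ x = x →
      Pα.map (padicHom (maximalIdeal O) hpO) *ᵥ x ∈ smallSub O _ n →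
      Pβ.map (padicHom (maximalIdeal O) hpO) *ᵥ x ∈ smallSub O _ n →
      (galO hpO (M * p) τ₀ + 1) ^ n *ᵥ x ∈ smallSub O _ n := by
  intro n
  induction n with
  | zero => intro x _ _ _; simp [mem_smallSub]
  | succ n ih =>
    intro x hxQ hxα hxβ
    set G := galO hpO (M * p) τ₀ + 1 with hG
    set y := G *ᵥ x with hy
    have hyQ : Q.map (padicHom (maximalIdeal O) hpO) *ᵥ y = y := proj_add_one hpO hQτ hxQ
    have hcommP : ∀ P : Matrix (Fin (Period.rankH M)) (Fin (Period.rankH (M * p))) ℤ_[p],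
        P * galZp (M * p) p τ₀ = galZp M p τ₀ * P →
        P.map (padicHom (maximalIdeal O) hpO) *ᵥ y =
          (galO hpO M τ₀ + 1) *ᵥ (P.map (padicHom (maximalIdeal O) hpO) *ᵥ x) := by
      intro P hP
      rw [hy, hG, mulVec_mulVec, mulVec_mulVec, Matrix.mul_add, Matrix.add_mul, Matrix.mul_one,
        Matrix.one_mul, galO_apply, galO_apply, ← Matrix.map_mul, ← Matrix.map_mul, hP]
    have hres : redVec y = 0 := by
      rw [hy, redVec_mulVec, ← RingHom.mapMatrix_apply, hG, map_add, map_one,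
        RingHom.mapMatrix_apply, galO_residue]
      set v := (galF (M * p) p (ResidueField O) τ₀ + 1) *ᵥ redVec x with hv
      funext i
      rw [Pi.zero_apply]
      by_contra hne
      letI := ZMod.algebra (ResidueField O) p
      obtain ⟨c₀, hc₀⟩ : ∃ c : Module.Dual (ZMod p) (ResidueField O), c (v i) ≠ 0 := by
        by_contra hh
        push Not at hh
        exact hne ((Module.forall_dual_apply_eq_zero_iff (ZMod p) _).mp hh)
      let e : ZMod p ≃+* ZMod (p ^ 1) := ZMod.ringEquivCongr (pow_one p).symm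
      let c : ResidueField O →+ ZMod (p ^ 1) := e.toRingHom.toAddMonoidHom.comp c₀.toAddMonoidHom
      refine hc₀ (e.injective ((?_ : c (v i) = 0).trans (map_zero e).symm))
      obtain ⟨u, hu, huc⟩ := exists_lat_lift hpO hQ hxQ c
      have hzero : ∀ P : Matrix (Fin (Period.rankH M)) (Fin (Period.rankH (M * p))) ℤ_[p],
          P.map (padicHom (maximalIdeal O) hpO) *ᵥ x ∈ smallSub O _ (n + 1) →
          pt M p 1 (P *ᵥ u) = 0 := by
        intro P hPx
        rw [← map_zero (pt M p 1), pt_eq_iff]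
        intro j
        have h0 : redVec (P.map (padicHom (maximalIdeal O) hpO) *ᵥ x) = 0 :=
          redVec_eq_zero_iff.mpr (mem_smallSub.mpr fun j =>
            Ideal.pow_le_pow_right (Nat.le_add_left 1 n) (mem_smallSub.mp hPx j))
        rw [redVec_mulVec, map_residue_padic] at h0
        have h1 := congrFun (coordAlong_map_mulVec c (P.map (PadicInt.toZModPow 1)) (redVec x)) j
        rw [h0, Pi.zero_apply, map_zero, ← huc] at h1
        rw [Pi.zero_apply, map_zero, RingHom.map_mulVec]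
        exact h1.symm
      have hgood : Nonempty ((BadOdd.dat A Fact.out hpM hA).Good p (pt (M * p) p 1 u)) := by
        have := hu 1
        rwa [pow_one] at this
      have hτz := smul_eq_of_good A Fact.out hpM hA hgood.some hα hβ
        (by rw [← hPα]; exact hzero Pα hxα) (by rw [← hPβ]; exact hzero Pβ hxβ) hτ hζ ha
      have h2 : pt (M * p) p 1 (galZp (M * p) p τ₀ *ᵥ u + u) = 0 := by
        rw [map_add, pt_galois, hτz, ← succ_nsmul]
        obtain ⟨d, hd⟩ := ha1
        have ht : p • pt (M * p) p 1 u = 0 := by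
          have := Pic0.mem_torsion.mp (pt_mem (p := p) (N := M * p) 1 u)
          rw [natCast_zsmul, pow_one] at this
          exact this
        rw [hd, mul_comm p d, mul_smul, ht, smul_zero]
      rw [← map_zero (pt (M * p) p 1), pt_eq_iff] at h2
      have h3 := h2 i
      rw [Pi.zero_apply, map_zero, Pi.add_apply, map_add, RingHom.map_mulVec] at h3
      show c (((galF (M * p) p (ResidueField O) τ₀ + 1) *ᵥ redVec x) i) = 0
      rw [add_mulVec, one_mulVec, Pi.add_apply, map_add,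
        show c ((galF (M * p) p (ResidueField O) τ₀ *ᵥ redVec x) i) =
          (galMat (M * p) (p ^ 1) τ₀ *ᵥ fun j => c (redVec x j)) i from
        congrFun (Lower.Lift.HopP.coordAlong_galF c τ₀ (redVec x)) i, ← huc]
      refine Eq.trans ?_ h3
      congr 1
      · rw [← toZModPow_tateMat]
        rfl
      · exact (congrFun huc i).symm
    obtain ⟨y', hy'⟩ := exists_div_uniformizer hϖ (redVec_eq_zero_iff.mp hres)
    have hy'Q : Q.map (padicHom (maximalIdeal O) hpO) *ᵥ y' = y' := by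
      rw [hy', mulVec_smul] at hyQ
      exact smul_right_injective _ hϖ.ne_zero hyQ
    have hsm : ∀ P : Matrix (Fin (Period.rankH M)) (Fin (Period.rankH (M * p))) ℤ_[p],
        P * galZp (M * p) p τ₀ = galZp M p τ₀ * P →
        P.map (padicHom (maximalIdeal O) hpO) *ᵥ x ∈ smallSub O _ (n + 1) →
        P.map (padicHom (maximalIdeal O) hpO) *ᵥ y' ∈ smallSub O _ n := by
      intro P hP hPx
      rw [← smul_mem_smallSub hϖ, ← mulVec_smul, ← hy', hcommP P hP]
      exact mulVec_mem_smallSub _ hPx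
    rw [pow_succ, ← mulVec_mulVec, ← hy, hy', mulVec_smul, smul_mem_smallSub hϖ]
    exact ih y' hy'Q (hsm Pα (hPαg τ₀) hxα) (hsm Pβ (hPβg τ₀) hxβ)

theorem proj_monodromy {r : ℕ} {W : Submodule ℤ_[p] (Fin r → ℤ_[p])}
    {Q G : Matrix (Fin r) (Fin r) ℤ_[p]} (hQ : ∀ u ∈ W, Q *ᵥ u = u)
    (hG : ∀ u, (G - 1) *ᵥ u ∈ W) : Q * (G - 1) = G - 1 :=
  Matrix.mulVec_injective (funext fun u => by rw [← mulVec_mulVec]; exact hQ _ (hG u))

/-- **Monodromy on the residually ordinary part.** -/
theorem exists_exponent (h : SysData p Mb fun l => residue O (ã l)) (hp2 : p ≠ 2) {M : ℕ}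
    [NeZero M] (hpM : ¬ p ∣ M) (hNS : ∀ q : ℕ, q.Prime → q ∣ M * p → q ∈ S)
    (hA : A.LiesOverPrime p) (hN : RedNormal Mb A p ϖ ζ τ₀) :
    ∃ e : ℕ → ℕ, ∀ σ ∈ A.inertiaSubgroupIn ℚ, ∀ y ∈ topNil ã (M * p), ∀ n,
      ((galO hpO (M * p) τ₀ + 1) ^ e n * (galO hpO (M * p) σ - 1)) *ᵥ y ∈ smallSub O _ n := by
  have hp : p.Prime := Fact.out
  haveI : NeZero p := ⟨hp.ne_zero⟩
  obtain ⟨ϖ₀, hϖ⟩ := IsDiscreteValuationRing.exists_irreducible O
  -- the exponent of `τ₀` at the roots of unity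
  obtain ⟨a, -, ha⟩ := hN.prim.eq_pow_of_pow_eq_one (ξ := τ₀ ζ)
    (by rw [← map_pow, hN.prim.pow_eq_one, map_one])
  have ha1 : p ∣ a + 1 := by
    have hd := h.det τ₀ a fun μ hμ => by
      obtain ⟨i, -, rfl⟩ := hN.prim.eq_pow_of_pow_eq_one hμ
      rw [map_pow, ← ha, ← pow_mul, ← pow_mul, mul_comm]
    rw [(trace_det_tau hN).2] at hd
    refine (CharP.cast_eq_zero_iff (ResidueField O) p _).mp ?_
    rw [Nat.cast_add, Nat.cast_one, ← hd, neg_add_cancel]
  obtain ⟨QR, hQR, hQR'⟩ := exists_projector (redLat (p := p) M A) (redLat_sat M A)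
  obtain ⟨QG, hQG, hQG'⟩ := exists_projector (goodLat A hp hpM hA) (goodLat_sat A hp hpM hA)
  haveI := Kronecker.isFF_bar M
  haveI := Kronecker.isFF_bar (M * p)
  obtain ⟨hα, hβ, -⟩ := Kronecker.heckeInputs_bar M p
  obtain ⟨Pα, hPα, hPαg⟩ := exists_equivariant_padicMat (p := p)
    (pushPic (heckeAlphaBar Qb M p) hα)
    (pushPic_galois _ hα fun σ => Kronecker.intertwinesAlong_heckeAlphaBar Qb M p σ)
  obtain ⟨Pβ, hPβ, hPβg⟩ := exists_equivariant_padicMat (p := p)
    (pushPic (heckeBetaBar Qb M p) hβ)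
    (pushPic_galois _ hβ fun σ => Kronecker.intertwinesAlong_heckeBetaBar Qb M p σ)
  refine ⟨fun n => n + Period.rankH M * n, fun σ hσ y hy n => ?_⟩
  set i := padicHom (maximalIdeal O) hpO
  set x := (galO hpO (M * p) σ - 1) *ᵥ y with hx
  have hxT : x ∈ topNil ã (M * p) :=
    topNil_map ã _ (fun l => ((galO_commute_devO hpO ã _ σ l).sub_left (Commute.one_left _))) hy
  have hQGσ := proj_monodromy hQG' (goodLat_monodromy A hp hpM hA hσ)
  have hQGτ := proj_monodromy hQG' (goodLat_monodromy A hp hpM hA hN.tau_mem)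
  have hxQ : QG.map i *ᵥ x = x := by
    have e := congrArg i.mapMatrix hQGσ
    rw [map_mul, map_sub, map_one] at e
    rw [hx, mulVec_mulVec]
    exact congrArg (· *ᵥ y) e
  set z := (galO hpO (M * p) τ₀ + 1) ^ (Period.rankH M * n) *ᵥ x with hz
  have hzQ : QG.map i *ᵥ z = z := pow_add_one_proj hpO hQGτ hxQ _
  have hPz : ∀ P : Matrix (Fin (Period.rankH M)) (Fin (Period.rankH (M * p))) ℤ_[p],
      (∀ g, P * galZp (M * p) p g = galZp M p g * P) →
      P.map i *ᵥ z ∈ smallSub O _ n := by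
    intro P hP
    have hPg : ∀ g, P.map i * galO hpO (M * p) g = galO hpO M g * P.map i := fun g => by
      rw [galO_apply, galO_apply, ← Matrix.map_mul, ← Matrix.map_mul, hP]
    have hPh : ∀ l : Fam S, P.map i * devO ã (M * p) l = devO ã M l * P.map i := fun l => by
      have h1 : ¬ (l.1 : ℕ) ∣ M * p := fun hd => l.2 (hNS _ l.1.2 hd)
      have e := mul_heckeAt hP h1 (fun hd => h1 (hd.trans (dvd_mul_right M p)))
        (fun he => h1 (he ▸ dvd_mul_left p M))
      have e' : ∀ L : ℕ, ∀ [NeZero L], ((heckeAt L l.1).map (Int.castRingHom ℤ_[p])).map i =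
          (heckeAt L l.1).map (Int.castRingHom O) := fun L _ => by ext r s; simp [i]
      rw [devO, devO, Matrix.mul_sub, Matrix.sub_mul, Matrix.mul_smul, Matrix.smul_mul,
        Matrix.mul_one, Matrix.one_mul, ← e', ← e', ← Matrix.map_mul, ← Matrix.map_mul, e]
    have hpow : ∀ k : ℕ, P.map i * (galO hpO (M * p) τ₀ + 1) ^ k =
        (galO hpO M τ₀ + 1) ^ k * P.map i := by
      intro k
      induction k with
      | zero => rw [pow_zero, pow_zero, Matrix.mul_one, Matrix.one_mul]
      | succ k ih =>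
        rw [pow_succ, pow_succ, ← Matrix.mul_assoc, ih, Matrix.mul_assoc, Matrix.mul_add, hPg,
          Matrix.mul_one, Matrix.mul_assoc, Matrix.add_mul, Matrix.one_mul]
    rw [hz, mulVec_mulVec, hpow, ← mulVec_mulVec]
    have hQRσ := proj_monodromy hQR' (redLat_monodromy hpM hA hσ)
    refine pow_mem_small_redLat hpO ã h hp2 hpM
      (fun q hq hd => hNS q hq (hd.trans (dvd_mul_right M p))) hA hN hQR
      (proj_monodromy hQR' (redLat_monodromy hpM hA hN.tau_mem)) hϖ n _
      (topNil_map ã _ hPh hxT) ?_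
    have e : P.map i * (galO hpO (M * p) σ - 1) = (galO hpO M σ - 1) * P.map i := by
      rw [Matrix.mul_sub, Matrix.sub_mul, hPg, Matrix.mul_one, Matrix.one_mul]
    have e' := congrArg i.mapMatrix hQRσ
    rw [map_mul, map_sub, map_one] at e'
    have key : QR.map i * (P.map i * (galO hpO (M * p) σ - 1)) =
        P.map i * (galO hpO (M * p) σ - 1) := by
      rw [e, ← Matrix.mul_assoc]
      exact congrArg (· * P.map i) e'
    rw [hx]
    simp only [mulVec_mulVec]
    exact congrArg (· *ᵥ y) key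
  have := pow_mem_small_goodLat hpO hpM hA hN.tau_mem hN.prim ha.symm ha1 hQG hQGτ hPα hPβ
    hPαg hPβg hϖ n z hzQ (hPz Pα hPαg) (hPz Pβ hPβg)
  rw [hz, mulVec_mulVec, ← pow_add, hx, mulVec_mulVec] at this
  exact this

end Coeff

end FLTAgent.OrdP
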