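import Fermat.Agent.OrdP.Basic
import Fermat.Agent.Local.Rho
import Fermat.Agent.Lower.Lift.HopP.Eigen
import Fermat.Agent.Lower.Lift.HopP.Embed
import Fermat.Agent.Lower.Lift.HopP.Algebra
import Fermat.Agent.Kronecker.HeckeReduction

/-!
# Residually ordinary eigenspaces in `J₀(N)[p] ⊗ F`

For a system `a` of eigenvalues mod `p` with representation `M` in normal form at a place over `p`
(`SysData`): `M` acts on the eigenspace (`SysData.quadratic`, `SysData.exists_hom`), `τ₀² - 1` is
nilpotent on the generalised eigenspace (`SysData.pow_sq_sub_one`) and a commutator with `τ₀` is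
injective there (`SysData.exists_injective_commutator`). For `p ∤ N`, a class reducing to zero and
fixed by `τ₀` vanishes (`SysData.eq_zero_of_fixed`, via the bound on points reducing to zero), so
those classes are killed by a power of `τ₀ + 1` (`SysData.pow_add_one_redZero`).
-/

set_option autoImplicit false
set_option linter.unusedSectionVars false
set_option linter.style.haveILetI false

noncomputable section

open ModularCurve Matrix

namespace FLTAgent.OrdP

open FLTAgent.Reps FLTAgent.Deform FLTAgent.TW FLTAgent.LocP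
open FLTAgent.Lower.Lift.HopP (galF heckeF toF coordAlong RedZero TorsCoord torsPoint)

local notation "Qb" => AlgebraicClosure ℚ
local notation "Γℚ" => (AlgebraicClosure ℚ ≃ₐ[ℚ] AlgebraicClosure ℚ)

/-- The primes outside `S`. -/
abbrev Fam (S : Finset ℕ) : Type := {l : Nat.Primes // (l : ℕ) ∉ S}

variable {N p : ℕ} [NeZero N] [Fact p.Prime] {F : Type} [Field F] [CharP F p] {S : Finset ℕ}

/-- The Hecke operator minus the eigenvalue. -/
def devMat (N : ℕ) [NeZero N] (a : Fam S → F) (l : Fam S) : Cm N F :=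
  heckeF N F (heckeGenOf N l.1) - a l • 1

theorem devMat_commute (a : Fam S → F) (l l' : Fam S) :
    Commute (devMat N a l) (devMat N a l') := by
  have h : Commute (heckeF N F (heckeGenOf N l.1)) (heckeF N F (heckeGenOf N l'.1)) :=
    (Commute.all _ _).map (heckeF N F)
  unfold devMat
  exact ((h.sub_right ((Commute.one_right _).smul_right _))).sub_left
    (((Commute.one_left _).smul_left _))

theorem galF_commute_devMat (a : Fam S → F) (σ : Γℚ) (l : Fam S) :
    Commute (galF N p F σ) (devMat N a l) := by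
  unfold devMat
  exact (Lower.Lift.HopP.galF_commute_heckeF σ _).sub_right ((Commute.one_right _).smul_right _)

/-- The eigenspace. -/
def eigE (N : ℕ) [NeZero N] (a : Fam S → F) : Submodule F (Cv N F) :=
  ⨅ l, LinearMap.ker (devMat N a l).mulVecLin

theorem mem_eigE {a : Fam S → F} {v : Cv N F} : v ∈ eigE N a ↔ ∀ l, devMat N a l *ᵥ v = 0 := by
  simp [eigE]

/-- The generalised eigenspace. -/
def genEig (N : ℕ) [NeZero N] (a : Fam S → F) : Submodule F (Cv N F) :=
  ⨅ l, LinearMap.ker ((devMat N a l).mulVecLin ^ Period.rankH N)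

theorem mulVecLin_pow {r : ℕ} (X : Matrix (Fin r) (Fin r) F) (k : ℕ) :
    X.mulVecLin ^ k = (X ^ k).mulVecLin := by
  induction k with
  | zero => rw [pow_zero, pow_zero, Matrix.mulVecLin_one]; rfl
  | succ k ih => rw [pow_succ, pow_succ, ih, Matrix.mulVecLin_mul]; rfl

theorem mem_genEig {a : Fam S → F} {v : Cv N F} :
    v ∈ genEig N a ↔ ∀ l, (devMat N a l ^ Period.rankH N) *ᵥ v = 0 := by
  simp [genEig, mulVecLin_pow]

/-- Nilpotence of some order is nilpotence of order `rankH N`. -/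
theorem mem_genEig_of_exists {a : Fam S → F} {v : Cv N F}
    (h : ∀ l, ∃ k, (devMat N a l ^ k) *ᵥ v = 0) : v ∈ genEig N a := by
  rw [mem_genEig]
  intro l
  obtain ⟨k, hk⟩ := h l
  have h1 : v ∈ LinearMap.ker ((devMat N a l).mulVecLin ^ k) := by
    simpa [mulVecLin_pow] using hk
  have h2 := Module.End.ker_pow_le_ker_pow_finrank ((devMat N a l).mulVecLin) k h1
  rw [Module.finrank_fin_fun] at h2
  simpa [mulVecLin_pow] using h2

theorem commute_mulVec_mem_genEig {a : Fam S → F} {X : Cm N F}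
    (hX : ∀ l, Commute X (devMat N a l)) {v : Cv N F} (hv : v ∈ genEig N a) :
    X *ᵥ v ∈ genEig N a := by
  rw [mem_genEig] at hv ⊢
  intro l
  rw [mulVec_mulVec, ← ((hX l).pow_right _).eq, ← mulVec_mulVec, hv l, mulVec_zero]

theorem commute_mulVec_mem_eigE {a : Fam S → F} {X : Cm N F}
    (hX : ∀ l, Commute X (devMat N a l)) {v : Cv N F} (hv : v ∈ eigE N a) :
    X *ᵥ v ∈ eigE N a := by
  rw [mem_eigE] at hv ⊢
  intro l
  rw [mulVec_mulVec, ← (hX l).eq, ← mulVec_mulVec, hv l, mulVec_zero]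

/-- A nonzero Hecke stable subspace of the generalised eigenspace meets the eigenspace. -/
theorem exists_mem_eigE {a : Fam S → F} {W : Submodule F (Cv N F)} (hW : W ≠ ⊥)
    (hWU : W ≤ genEig N a) (hst : ∀ l, ∀ v ∈ W, devMat N a l *ᵥ v ∈ W) :
    ∃ v ∈ W, v ≠ 0 ∧ v ∈ eigE N a := by
  induction hn : Module.finrank F W using Nat.strong_induction_on generalizing W with
  | _ n ih =>
    by_cases h : ∀ l, ∀ v ∈ W, devMat N a l *ᵥ v = 0
    · obtain ⟨v, hv, hv0⟩ := (Submodule.ne_bot_iff W).mp hW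
      exact ⟨v, hv, hv0, mem_eigE.mpr fun l => h l v hv⟩
    push Not at h
    obtain ⟨l, v₀, hv₀, hne⟩ := h
    set W' := W.map (devMat N a l).mulVecLin with hW'
    have hle : W' ≤ W := by
      rintro _ ⟨v, hv, rfl⟩
      exact hst l v hv
    have hlt : W' < W := lt_of_le_of_ne hle fun he => by
      -- a surjective nilpotent map kills nothing
      have hpow : ∀ k, ∀ v ∈ W, ∃ u ∈ W, (devMat N a l ^ k) *ᵥ u = v := by
        intro k
        induction k with
        | zero => intro v hv; exact ⟨v, hv, by rw [pow_zero, one_mulVec]⟩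
        | succ k ihk =>
          intro v hv
          rw [← he] at hv
          obtain ⟨w, hw, rfl⟩ := hv
          obtain ⟨u, hu, rfl⟩ := ihk w hw
          exact ⟨u, hu, by rw [pow_succ', ← mulVec_mulVec]; rfl⟩
      obtain ⟨u, hu, hu'⟩ := hpow (Period.rankH N) v₀ hv₀
      exact hne (by rw [← hu', mem_genEig.mp (hWU hu) l, mulVec_zero])
    obtain ⟨v, hv, hv0, hE⟩ := ih _ (hn ▸ Submodule.finrank_lt_finrank_of_lt hlt)
      (W := W') ((Submodule.ne_bot_iff _).mpr ⟨_, ⟨v₀, hv₀, rfl⟩, hne⟩) (hle.trans hWU)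
      (by
        rintro l' _ ⟨v, hv, rfl⟩
        refine ⟨devMat N a l' *ᵥ v, hst l' v hv, ?_⟩
        simp [(devMat_commute (N := N) a l l').eq]) rfl
    exact ⟨v, hle hv, hv0, hE⟩

/-- Galois on the eigenspace. -/
def eigAct (p : ℕ) [Fact p.Prime] [CharP F p] (a : Fam S → F) :
    Γℚ →* Module.End F (eigE N a) where
  toFun σ := (galF N p F σ).mulVecLin.restrict fun _ hv =>
    commute_mulVec_mem_eigE (galF_commute_devMat a σ) hv
  map_one' := LinearMap.ext fun v => Subtype.ext (by simp [LinearMap.coe_restrict_apply])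
  map_mul' σ τ := LinearMap.ext fun v => Subtype.ext (by
    show galF N p F (σ * τ) *ᵥ (v : Cv N F) = galF N p F σ *ᵥ (galF N p F τ *ᵥ (v : Cv N F))
    rw [map_mul, mulVec_mulVec])

theorem coe_eigAct (a : Fam S → F) (σ : Γℚ) (v : eigE N a) :
    (eigAct p a σ v : Cv N F) = galF N p F σ *ᵥ v := rfl

/-- The Hecke ring outside `S` on the eigenspace. -/
def eigHecke (a : Fam S → F) :
    ↥(CuspForm.heckeAlgebra N 2 (↑S : Set ℕ)) →+* Module.End F (eigE N a) where
  toFun t := (heckeF N F (Subalgebra.inclusion (CuspForm.heckeAlgebra_mono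
      (Set.empty_subset (↑S : Set ℕ))) t)).mulVecLin.restrict fun _ hv =>
    commute_mulVec_mem_eigE (fun l => by
      unfold devMat
      exact ((Commute.all _ _).map (heckeF N F)).sub_right ((Commute.one_right _).smul_right _)) hv
  map_one' := LinearMap.ext fun v => Subtype.ext (by simp [LinearMap.coe_restrict_apply])
  map_mul' s t := LinearMap.ext fun v => Subtype.ext (by
    show heckeF N F _ *ᵥ (v : Cv N F) = heckeF N F _ *ᵥ (heckeF N F _ *ᵥ (v : Cv N F))
    rw [map_mul, map_mul, mulVec_mulVec])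
  map_zero' := LinearMap.ext fun v => Subtype.ext (by simp [LinearMap.coe_restrict_apply])
  map_add' s t := LinearMap.ext fun v => Subtype.ext (by
    show heckeF N F _ *ᵥ (v : Cv N F) =
      heckeF N F _ *ᵥ (v : Cv N F) + heckeF N F _ *ᵥ (v : Cv N F)
    rw [map_add, map_add, add_mulVec])

/-- The recursion is preserved by maps sending the parameters to scalars. -/
theorem map_luc_scalar {R B : Type} [CommRing R] [Ring B] [Algebra F B] (f : R →+* B) {t d : R}
    {x y : F} (ht : f t = algebraMap F B x) (hd : f d = algebraMap F B y) :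
    ∀ k, f (luc t d k) = algebraMap F B (luc x y k)
  | 0 => by simp only [luc, map_ofNat]
  | 1 => ht
  | n + 2 => by
    simp only [luc, map_sub, map_mul, ht, hd, map_luc_scalar f ht hd (n + 1),
      map_luc_scalar f ht hd n]

/-- The hypotheses on the residual system. -/
structure SysData (p : ℕ) [Fact p.Prime] (M : MatRep F) (a : Fam S → F) : Prop where
  p_mem : p ∈ S
  finite : FactorsFinite M
  det : DetCyclotomic M p
  span : Submodule.span F (Set.range M) = ⊤
  frob : ∀ (l : Fam S) (A : ValuationSubring Qb) (σ : Γℚ), A.LiesOverPrime (l.1 : ℕ) →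
    A.IsFrobeniusAt σ (l.1 : ℕ) → (M σ).trace = a l

variable {M : MatRep F} {a : Fam S → F}

/-- Galois satisfies the quadratic relations of `M` on the eigenspace. -/
theorem SysData.quadratic (h : SysData p M a) (hNS : ∀ q : ℕ, q.Prime → q ∣ N → q ∈ S) (g : Γℚ) :
    eigAct (N := N) p a g + (M g).det • eigAct (N := N) p a g⁻¹ =
      algebraMap F (Module.End F (eigE N a)) (M g).trace := by
  haveI : NeZero (p ^ 1) := ⟨pow_ne_zero _ (Fact.out : p.Prime).ne_zero⟩
  have hd : ∀ g : Γℚ, (M g).det = ((cycMod p 1 g).val : F) := fun g =>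
    h.det g _ fun μ hμ => cycMod_spec p 1 g (by rwa [pow_one])
  obtain ⟨LE, hLE, hfix⟩ := h.finite
  obtain ⟨t, ht, htr⟩ := Local.exists_mod_rel (Local.tauS (galModel N p) S) (galModel N p).M
    (galModel N p).continuous_level S h.p_mem 1
    (fun g t => eigHecke a t = algebraMap F (Module.End F (eigE N a)) (M g).trace) LE
    (fun g u t hu h' => by rw [map_mul, hfix u hu, mul_one]; exact h')
    (fun g t k h' => by
      have e := trace_pow_eq_luc (V := Fin 2 → F) (Module.finrank_fin_fun F)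
        (Matrix.toLinAlgEquiv' (M g)) k
      rw [← map_pow] at e
      simp only [Matrix.toLinAlgEquiv', LinearMap.toMatrixAlgEquiv'] at e
      have e' : (M g ^ k).trace = luc (M g).trace (M g).det k := by
        simpa [← Matrix.toLin'_pow, LinearMap.trace_eq_matrix_trace F (Pi.basisFun F (Fin 2)),
          ← LinearMap.det_toMatrix'] using e
      rw [map_pow, e', hd]
      refine map_luc_scalar (R := ↥(CuspForm.heckeAlgebra N 2 (↑S : Set ℕ)))
        (B := Module.End F (eigE N a)) (eigHecke a) h' ?_ k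
      rw [map_natCast, map_natCast])
    (fun ℓ hℓ hℓS A hA σ hσ => by
      have hℓN : ¬ ℓ ∣ N := fun hd' => hℓS (hNS ℓ hℓ hd')
      have hℓp : ℓ ≠ p := fun e => hℓS (e ▸ h.p_mem)
      refine ⟨CuspForm.heckeAlgebra.T hℓ hℓN (mod_cast hℓS),
        (galModel N p).frobenius_rel ℓ hℓ hℓN hℓp A hA σ hσ, ?_⟩
      rw [h.frob ⟨⟨ℓ, hℓ⟩, hℓS⟩ A σ hA hσ]
      refine LinearMap.ext fun v => Subtype.ext ?_
      have hv := mem_eigE.mp v.2 ⟨⟨ℓ, hℓ⟩, hℓS⟩
      rw [devMat, sub_mulVec, sub_eq_zero, smul_mulVec, one_mulVec, heckeGenOf_T N hℓ hℓN] at hv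
      exact hv) g
  rw [Local.toZModPow_traceOp] at ht
  have ht' := congrArg (toF p F).mapMatrix ht
  change (toF p F).mapMatrix ((PadicInt.toZModPow 1).mapMatrix (tateMat N p g) +
    cycMod p 1 g • (PadicInt.toZModPow 1).mapMatrix (tateMat N p g⁻¹)) =
      (toF p F).mapMatrix ((Int.castRingHom _).mapMatrix
        (Local.tauS (galModel N p) S t)) at ht'
  rw [toZModPow_tateMat, toZModPow_tateMat, map_add] at ht'
  erw [Lower.Lift.HopP.toF_mapMatrix_intCast] at ht'
  refine LinearMap.ext fun v => Subtype.ext ?_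
  have hv := congrArg Subtype.val (LinearMap.congr_fun htr v)
  have hsm : (toF p F).mapMatrix (cycMod p 1 g • galMat N (p ^ 1) g⁻¹) =
      (M g).det • galF N p F g⁻¹ := by
    ext i j
    rw [RingHom.mapMatrix_apply, Matrix.map_apply, Matrix.smul_apply, Matrix.smul_apply,
      smul_eq_mul, smul_eq_mul, map_mul, hd]
    congr 1
    rw [← map_natCast (toF p F), ZMod.natCast_zmod_val]
  rw [hsm] at ht'
  rw [LinearMap.add_apply, LinearMap.smul_apply, Submodule.coe_add, Submodule.coe_smul,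
    coe_eigAct, coe_eigAct, ← hv, ← smul_mulVec, ← add_mulVec]
  exact congrArg (· *ᵥ (v : Cv N F)) ht'

/-- The endomorphisms of `M` act on the eigenspace. -/
theorem SysData.exists_hom (h : SysData p M a) (hp2 : p ≠ 2)
    (hNS : ∀ q : ℕ, q.Prime → q ∣ N → q ∈ S) :
    ∃ ψ : Matrix (Fin 2) (Fin 2) F →ₐ[F] Module.End F (eigE N a),
      ∀ g, ψ (M g) = eigAct p a g := by
  have h2 : (2 : F) ≠ 0 := fun e => hp2 ((Nat.prime_dvd_prime_iff_eq (Fact.out : p.Prime)
    Nat.prime_two).mp ((CharP.cast_eq_zero_iff F p 2).mp e))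
  let e : Matrix (Fin 2) (Fin 2) F ≃ₐ[F] Module.End F (Fin 2 → F) := Matrix.toLinAlgEquiv'
  let ρ : Γℚ →* Module.End F (Fin 2 → F) := e.toAlgHom.toRingHom.toMonoidHom.comp M
  have htr : ∀ g, LinearMap.trace F (Fin 2 → F) (ρ g) = (M g).trace := fun g => by
    show LinearMap.trace F (Fin 2 → F) (Matrix.toLin' (M g)) = _
    rw [Matrix.trace_toLin'_eq]
  have hdet : ∀ g, LinearMap.det (ρ g) = (M g).det := fun g => by
    show LinearMap.det (Matrix.toLin' (M g)) = _
    rw [LinearMap.det_toLin']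
  obtain ⟨ψ, hψ⟩ := Lower.Lift.exists_hom_of_quadratic (ρ := ρ) (γ := eigAct (N := N) p a)
    (Pi.basisFun F (Fin 2))
    (fun g => by
      have hq := congrArg (eigAct (N := N) p a g * ·) (h.quadratic hNS g)
      simp only [mul_add, mul_smul_comm, ← map_mul (eigAct (N := N) p a), mul_inv_cancel,
        map_one, Algebra.algebraMap_eq_smul_one, mul_one] at hq
      rw [htr, hdet, ← hq, map_mul]
      abel)
    (fun y hy => (smul_eq_zero.mp hy).resolve_left h2)
    (by
      rw [eq_top_iff]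
      intro X _
      have hX : e.symm X ∈ Submodule.span F (Set.range M) := h.span ▸ Submodule.mem_top
      have h1 := Submodule.mem_map_of_mem (f := e.toLinearMap) hX
      rw [Submodule.map_span, ← Set.range_comp] at h1
      simpa [Function.comp_def, ρ] using h1)
  exact ⟨ψ.comp e.toAlgHom, hψ⟩

variable {A : ValuationSubring Qb} {ϖ ζ : Qb} {τ₀ : Γℚ}

theorem trace_det_tau (hN : RedNormal M A p ϖ ζ τ₀) :
    (M τ₀).trace = 0 ∧ (M τ₀).det = -1 := by
  rw [hN.tau]
  simp [Matrix.trace_fin_two, Matrix.det_fin_two]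

/-- On the generalised eigenspace `τ² - 1` is nilpotent. -/
theorem SysData.pow_sq_sub_one (h : SysData p M a) (hNS : ∀ q : ℕ, q.Prime → q ∣ N → q ∈ S)
    (hN : RedNormal M A p ϖ ζ τ₀) {v : Cv N F} (hv : v ∈ genEig N a) :
    ((galF N p F τ₀ * galF N p F τ₀ - 1) ^ Period.rankH N) *ᵥ v = 0 := by
  set X := galF N p F τ₀ * galF N p F τ₀ - 1 with hX
  have hXD : ∀ l, Commute X (devMat N a l) := fun l =>
    ((galF_commute_devMat a τ₀ l).mul_left (galF_commute_devMat a τ₀ l)).sub_left
      (Commute.one_left _)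
  have hE : ∀ w ∈ eigE N a, X *ᵥ w = 0 := fun w hw => by
    have hq := congrArg Subtype.val (LinearMap.congr_fun (h.quadratic hNS τ₀) ⟨w, hw⟩)
    rw [(trace_det_tau hN).1, (trace_det_tau hN).2] at hq
    simp only [map_zero, LinearMap.zero_apply, LinearMap.add_apply, LinearMap.smul_apply,
      neg_smul, one_smul,
      ZeroMemClass.coe_zero, ← sub_eq_add_neg] at hq
    rw [AddSubgroupClass.coe_sub, coe_eigAct, coe_eigAct, sub_eq_zero] at hq
    rw [hX, sub_mulVec, one_mulVec, sub_eq_zero, ← mulVec_mulVec, hq, mulVec_mulVec, ← map_mul,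
      mul_inv_cancel, map_one, one_mulVec]
  by_contra hne
  let W : Submodule F (Cv N F) := (genEig N a).map ((X ^ Period.rankH N).mulVecLin)
  obtain ⟨w, ⟨u, hu, rfl⟩, hw0, hwE⟩ := exists_mem_eigE (W := W)
    ((Submodule.ne_bot_iff _).mpr ⟨_, ⟨v, hv, rfl⟩, hne⟩)
    (by
      rintro _ ⟨u, hu, rfl⟩
      exact commute_mulVec_mem_genEig (fun l => (hXD l).pow_left _) hu)
    (by
      rintro l _ ⟨u, hu, rfl⟩
      refine ⟨devMat N a l *ᵥ u,
        commute_mulVec_mem_genEig (fun l' => devMat_commute a l l') hu, ?_⟩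
      simp [((hXD l).pow_left _).eq])
  refine hw0 ?_
  have h1 : u ∈ LinearMap.ker (X.mulVecLin ^ (Period.rankH N + 1)) := by
    simpa [mulVecLin_pow, pow_succ', ← mulVec_mulVec] using hE _ hwE
  have h2 := Module.End.ker_pow_le_ker_pow_finrank X.mulVecLin (Period.rankH N + 1) h1
  rw [Module.finrank_fin_fun] at h2
  simpa [mulVecLin_pow] using h2

/-- The commutator with `τ₀` of an element off the diagonal is injective on the generalised
eigenspace. -/
theorem SysData.exists_injective_commutator (h : SysData p M a) (hp2 : p ≠ 2)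
    (hNS : ∀ q : ℕ, q.Prime → q ∣ N → q ∈ S) (hN : RedNormal M A p ϖ ζ τ₀) :
    ∃ b : Γℚ, ∀ v ∈ genEig N a,
      (galF N p F τ₀ * galF N p F b - galF N p F b * galF N p F τ₀) *ᵥ v = 0 → v = 0 := by
  have h2 : (2 : F) ≠ 0 := fun e => hp2 ((Nat.prime_dvd_prime_iff_eq (Fact.out : p.Prime)
    Nat.prime_two).mp ((CharP.cast_eq_zero_iff F p 2).mp e))
  obtain ⟨ψ, hψ⟩ := h.exists_hom (N := N) hp2 hNS
  obtain ⟨b, hb01, hb10⟩ := Lower.Lift.HopP.exists_offDiag_ne_zero M h.span
  refine ⟨b, fun v hv hCv => by_contra fun hne => ?_⟩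
  set C := galF N p F τ₀ * galF N p F b - galF N p F b * galF N p F τ₀ with hC
  have hCD : ∀ l, Commute C (devMat N a l) := fun l =>
    ((galF_commute_devMat a τ₀ l).mul_left (galF_commute_devMat a b l)).sub_left
      ((galF_commute_devMat a b l).mul_left (galF_commute_devMat a τ₀ l))
  obtain ⟨w, ⟨hwU, hwC⟩, hw0, hwE⟩ := exists_mem_eigE
    (W := genEig N a ⊓ LinearMap.ker C.mulVecLin)
    ((Submodule.ne_bot_iff _).mpr ⟨v, ⟨hv, hCv⟩, hne⟩) inf_le_left
    (by
      rintro l u ⟨hu, huC⟩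
      refine ⟨commute_mulVec_mem_genEig (fun l' => devMat_commute a l l') hu, ?_⟩
      change C *ᵥ u = 0 at huC
      show C *ᵥ (devMat N a l *ᵥ u) = 0
      rw [mulVec_mulVec, (hCD l).eq, ← mulVec_mulVec, huC, mulVec_zero])
  set c := M τ₀ * M b - M b * M τ₀ with hc
  have hCc : ∀ u : eigE N a, ((ψ c u : eigE N a) : Cv N F) = C *ᵥ (u : Cv N F) := fun u => by
    rw [hc, map_sub, map_mul, map_mul, hψ, hψ, LinearMap.sub_apply, Module.End.mul_apply,
      Module.End.mul_apply, AddSubgroupClass.coe_sub, coe_eigAct, coe_eigAct, coe_eigAct,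
      coe_eigAct, hC, sub_mulVec, mulVec_mulVec, mulVec_mulVec]
  have hc2 : c * c = algebraMap F (Matrix (Fin 2) (Fin 2) F) (-4 * (M b 0 1 * M b 1 0)) := by
    rw [hc, hN.tau]; exact Lower.Lift.HopP.comm_sq_diag _
  have h0 : ψ c (ψ c ⟨w, hwE⟩) = 0 := by
    have : ψ c ⟨w, hwE⟩ = 0 := Subtype.ext ((hCc _).trans hwC)
    rw [this, map_zero]
  rw [← Module.End.mul_apply, ← map_mul, hc2, AlgHom.commutes, Module.algebraMap_end_apply] at h0
  refine hw0 (congrArg Subtype.val ((smul_eq_zero.mp h0).resolve_left ?_))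
  refine mul_ne_zero (neg_ne_zero.mpr ?_) (mul_ne_zero hb01 hb10)
  rw [show (4 : F) = 2 * 2 by norm_num]
  exact mul_ne_zero h2 h2

theorem coordAlong_smul_functional (c : F →+ ZMod (p ^ 1)) (x : F) (v : Cv N F) :
    coordAlong c (x • v) = coordAlong (c.comp (AddMonoidHom.mulLeft x)) v := rfl

/-- The classes reducing to zero. -/
def redSub (p : ℕ) [Fact p.Prime] [CharP F p] (A : ValuationSubring Qb) : Submodule F (Cv N F) where
  carrier := {v | RedZero (p := p) A v}
  zero_mem' := fun c => by rw [map_zero, map_zero, map_zero]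
  add_mem' := fun {u v} hu hv c => by rw [map_add, map_add, map_add, hu c, hv c, add_zero]
  smul_mem' := fun x v hv c => by rw [coordAlong_smul_functional]; exact hv _

theorem devMat_mem_redSub (hpN : ¬ p ∣ N) (hA : A.LiesOverPrime p)
    (hNS : ∀ q : ℕ, q.Prime → q ∣ N → q ∈ S) (a : Fam S → F) (l : Fam S) {v : Cv N F}
    (hv : v ∈ redSub p A) : devMat N a l *ᵥ v ∈ redSub p A := by
  rw [devMat, sub_mulVec, smul_mulVec, one_mulVec]
  refine sub_mem (fun c => ?_) ((redSub p A).smul_mem _ hv)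
  have hlN : ¬ ((l.1 : ℕ)) ∣ N := fun h => l.2 (hNS _ l.1.2 h)
  obtain ⟨⟨l, hl⟩, hlS⟩ := l
  rw [Lower.Lift.HopP.coordAlong_heckeF]
  show reductionModL A N (torsPoint N p ((Int.castRingHom (ZMod (p ^ 1))).mapMatrix
    (HeckeH.heckeMatHom N (heckeGenOf N ⟨l, hl⟩)) *ᵥ coordAlong c v)) = 0
  rw [heckeGenOf_T N hl hlN, Lower.Lift.HopP.torsPoint_hecke]
  exact Kronecker.reductionModL_heckeOperatorBar_eq_zero N hpN A hA _ _ (hv c)

/-- A class reducing to zero in the generalised eigenspace fixed by `τ₀` is zero. -/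
theorem SysData.eq_zero_of_fixed [Finite F] (h : SysData p M a) (hp2 : p ≠ 2) (hpN : ¬ p ∣ N)
    (hNS : ∀ q : ℕ, q.Prime → q ∣ N → q ∈ S) (hA : A.LiesOverPrime p)
    (hN : RedNormal M A p ϖ ζ τ₀) {v : Cv N F} (hv : v ∈ genEig N a) (hred : v ∈ redSub p A)
    (hfix : galF N p F τ₀ *ᵥ v = v) : v = 0 := by
  classical
  by_contra hne
  let W : Submodule F (Cv N F) :=
    genEig N a ⊓ redSub p A ⊓ LinearMap.ker (galF N p F τ₀ - 1).mulVecLin
  obtain ⟨w, ⟨⟨hwU, hwR⟩, hwτ⟩, hw0, hwE⟩ := exists_mem_eigE (W := W)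
    ((Submodule.ne_bot_iff _).mpr ⟨v, ⟨⟨hv, hred⟩, by
      show (galF N p F τ₀ - 1) *ᵥ v = 0
      rw [sub_mulVec, one_mulVec, hfix, sub_self]⟩, hne⟩)
    (inf_le_left.trans inf_le_left)
    (by
      rintro l u ⟨⟨hu, huR⟩, huτ⟩
      refine ⟨⟨commute_mulVec_mem_genEig (fun l' => devMat_commute a l l') hu,
        devMat_mem_redSub hpN hA hNS a l huR⟩, ?_⟩
      change (galF N p F τ₀ - 1) *ᵥ u = 0 at huτ
      show (galF N p F τ₀ - 1) *ᵥ (devMat N a l *ᵥ u) = 0
      rw [mulVec_mulVec, ((galF_commute_devMat a τ₀ l).sub_left (Commute.one_left _)).eq,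
        ← mulVec_mulVec, huτ, mulVec_zero])
  change (galF N p F τ₀ - 1) *ᵥ w = 0 at hwτ
  rw [sub_mulVec, one_mulVec, sub_eq_zero] at hwτ
  obtain ⟨ψ, hψ⟩ := h.exists_hom (N := N) hp2 hNS
  -- an embedding of `M` sending the second basis vector to `w`
  let f : Vec F →ₗ[F] eigE N a := (LinearMap.applyₗ (⟨w, hwE⟩ : eigE N a)).comp
    (ψ.toLinearMap.comp (Lower.Lift.HopP.colMat 1))
  have hfg : ∀ g x, f (M g *ᵥ x) = eigAct p a g (f x) := fun g x => by
    show ψ (Lower.Lift.HopP.colMat 1 (M g *ᵥ x)) ⟨w, hwE⟩ = _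
    rw [← Lower.Lift.HopP.mul_colMat, map_mul, hψ]
    rfl
  have h2 : (2 : F) ≠ 0 := fun e => hp2 ((Nat.prime_dvd_prime_iff_eq (Fact.out : p.Prime)
    Nat.prime_two).mp ((CharP.cast_eq_zero_iff F p 2).mp e))
  have hf1 : f ![0, 1] = ⟨w, hwE⟩ := by
    refine smul_right_injective _ h2 ?_
    have e2 : (2 : F) • Lower.Lift.HopP.colMat (1 : Fin 2) ![(0 : F), 1] = 1 + M τ₀ := by
      rw [hN.tau]
      ext i j
      fin_cases i <;> fin_cases j <;> simp [Lower.Lift.HopP.colMat] <;> ring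
    show (2 : F) • ψ (Lower.Lift.HopP.colMat (1 : Fin 2) ![(0 : F), 1]) ⟨w, hwE⟩ = _
    rw [← LinearMap.smul_apply, ← map_smul, e2, map_add, map_one, hψ, LinearMap.add_apply]
    show _ = (2 : F) • _
    rw [two_smul]
    exact congrArg₂ (· + ·) rfl (Subtype.ext hwτ)
  have hfinj : Function.Injective f := (injective_iff_map_eq_zero _).mpr fun x hx => by
    by_contra hx0
    have hstab : ∀ Y : Matrix (Fin 2) (Fin 2) F, f (Y *ᵥ x) = 0 := fun Y => by
      show ψ (Lower.Lift.HopP.colMat 1 (Y *ᵥ x)) ⟨w, hwE⟩ = 0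
      rw [← Lower.Lift.HopP.mul_colMat, map_mul, Module.End.mul_apply]
      exact (congrArg (ψ Y) hx).trans (map_zero _)
    obtain ⟨i, hi⟩ := Function.ne_iff.mp hx0
    have hxi : x i ≠ 0 := hi
    have hA' := hstab (Matrix.of fun r s => if s = i then (x i)⁻¹ * (![0, 1] : Vec F) r else 0)
    rw [show (Matrix.of fun r s => if s = i then (x i)⁻¹ * (![0, 1] : Vec F) r else 0) *ᵥ x =
      ![0, 1] from funext fun r => by
        simp only [Matrix.mulVec, dotProduct, Matrix.of_apply, ite_mul, zero_mul,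
          Finset.sum_ite_eq', Finset.mem_univ, if_true]
        field_simp, hf1] at hA'
    exact hw0 (congrArg Subtype.val hA')
  obtain ⟨H₀, hH₀, hball⟩ := Lower.Lift.HopP.exists_order_tors N p hpN hA
  let vec : Vec F →+ Cv N F := ((eigE N a).subtype.comp f).toAddMonoidHom
  let ι : (F →+ ZMod (p ^ 1)) → Vec F →+ TorsCoord N p := fun c => (coordAlong c).comp vec
  haveI : Finite (F →+ ZMod (p ^ 1)) := Finite.of_injective _ DFunLike.coe_injective
  have h1 := Lower.Lift.HopP.snd_eq_zero_of_ball hN h.det hA hp2 hH₀ ι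
    (fun c σ z => ?_) (fun z hz => ?_) (x := ![0, 1])
    fun c b hb => hball _ (by
      show reductionModL A N (torsPoint N p (coordAlong c ((f ![0, 1] : eigE N a) : Cv N F))) = 0
      rw [hf1]; exact hwR c) b hb
  · simp at h1
  · show coordAlong c ((f (M σ *ᵥ z) : eigE N a) : Cv N F) = galMat N (p ^ 1) σ *ᵥ coordAlong c _
    rw [hfg, coe_eigAct, Lower.Lift.HopP.coordAlong_galF]
    rfl
  · refine hfinj (Subtype.ext (funext fun j => ?_))
    rw [map_zero, Submodule.coe_zero, Pi.zero_apply]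
    by_contra hne'
    letI := ZMod.algebra F p
    obtain ⟨c, hc⟩ : ∃ c : Module.Dual (ZMod p) F, c ((f z : Cv N F) j) ≠ 0 := by
      by_contra hh
      push Not at hh
      exact hne' ((Module.forall_dual_apply_eq_zero_iff (ZMod p) _).mp hh)
    let e : ZMod p ≃+* ZMod (p ^ 1) := ZMod.ringEquivCongr (pow_one p).symm
    have hh := congrFun (hz ((e.toRingHom.toAddMonoidHom).comp c.toAddMonoidHom)) j
    exact hc (e.injective (hh.trans (map_zero e).symm))

/-- The classes reducing to zero in the generalised eigenspace are killed by a power of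
`τ₀ + 1`. -/
theorem SysData.pow_add_one_redZero [Finite F] (h : SysData p M a) (hp2 : p ≠ 2) (hpN : ¬ p ∣ N)
    (hNS : ∀ q : ℕ, q.Prime → q ∣ N → q ∈ S) (hA : A.LiesOverPrime p)
    (hN : RedNormal M A p ϖ ζ τ₀)
    (hst : ∀ v : Cv N F, v ∈ redSub p A → galF N p F τ₀ *ᵥ v ∈ redSub p A)
    {v : Cv N F} (hv : v ∈ genEig N a) (hred : v ∈ redSub p A) :
    ((galF N p F τ₀ + 1) ^ Period.rankH N) *ᵥ v = 0 := by
  set r := Period.rankH N
  set G := galF N p F τ₀
  have hmem : ∀ (k : ℕ) u, u ∈ genEig N a → u ∈ redSub p A →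
      ((G + 1) ^ k) *ᵥ u ∈ genEig N a ∧ ((G + 1) ^ k) *ᵥ u ∈ redSub p A := by
    intro k
    induction k with
    | zero => intro u hu hu'; rw [pow_zero, one_mulVec]; exact ⟨hu, hu'⟩
    | succ k ih =>
      intro u hu hu'
      obtain ⟨h1, h2⟩ := ih u hu hu'
      rw [pow_succ', ← mulVec_mulVec, add_mulVec, one_mulVec]
      exact ⟨add_mem (commute_mulVec_mem_genEig (galF_commute_devMat a τ₀) h1) h1,
        add_mem (hst _ h2) h2⟩
  have hinj : ∀ (k : ℕ) u, u ∈ genEig N a → u ∈ redSub p A →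
      ((G - 1) ^ k) *ᵥ u = 0 → u = 0 := by
    intro k
    induction k with
    | zero => intro u _ _ hu; rwa [pow_zero, one_mulVec] at hu
    | succ k ih =>
      intro u hu hu' hk
      rw [pow_succ, ← mulVec_mulVec] at hk
      have hz : (G - 1) *ᵥ u = 0 := ih _
        (by rw [sub_mulVec, one_mulVec]
            exact sub_mem (commute_mulVec_mem_genEig (galF_commute_devMat a τ₀) hu) hu)
        (by rw [sub_mulVec, one_mulVec]; exact sub_mem (hst _ hu') hu') hk
      rw [sub_mulVec, one_mulVec, sub_eq_zero] at hz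
      exact h.eq_zero_of_fixed hp2 hpN hNS hA hN hu hu' hz
  refine hinj r _ (hmem r v hv hred).1 (hmem r v hv hred).2 ?_
  rw [mulVec_mulVec, ← ((Commute.refl G).add_right (Commute.one_right G)).sub_left
    (Commute.one_left _) |>.mul_pow, show (G - 1) * (G + 1) = G * G - 1 by noncomm_ring]
  exact h.pow_sq_sub_one hNS hN hv

end FLTAgent.OrdP
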