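import Fermat.Agent.OrdP.Monodromy
import Fermat.Agent.Lower.Levels.HeckeFaithful
import Fermat.Agent.FlatHopf.HeckeFlat
import Fermat.Prelude.Thm_Algebra_finite_maximalSpectrum_and_bijective_localization_of_module_finite

/-!
# Transfer of monodromy to attached representations

`exists_exponent_rep`: if on the topologically nilpotent vectors powers of `τ + 1` make `σ - 1`
small, the same holds on an attached, residually absolutely irreducible representation over `T`.
The idempotent of `exists_nilpotent_proj` cuts out those vectors, the trace relation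
(`exists_trace_heckeO`, with the reversed action `galDual`: `g ↦ χ(g) M(g)⁻¹`) identifies traces
with Hecke elements, an injective commutator makes these small, and Artin-Rees
(`exists_artinRees`) brings this back to `T`.
-/

set_option autoImplicit false
set_option linter.unusedSectionVars false
set_option linter.style.haveILetI false
set_option maxHeartbeats 800000
set_option synthInstance.maxHeartbeats 200000

noncomputable section

open ModularCurve Matrix CuspForm
open scoped TensorProduct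
open IsLocalRing (maximalIdeal residue ResidueField)

namespace FLTAgent.OrdP

open FLTAgent.Reps FLTAgent.TW FLTAgent.LocP
open FLTAgent.Lower.Levels (heckeMatO heckeMatAlg heckeMatO_tmul heckeMatO_injective)
open FLTAgent.Lower.Lift.HopP (galF)

local notation "Qb" => AlgebraicClosure ℚ
local notation "Γℚ" => (AlgebraicClosure ℚ ≃ₐ[ℚ] AlgebraicClosure ℚ)

/-- The Hecke ring outside `S` with coefficients in `O`. -/
abbrev HeckeO (N : ℕ) [NeZero N] (S : Finset ℕ) (O : Type) [CommRing O] : Type :=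
  O ⊗[ℤ] ↥(CuspForm.heckeAlgebra N 2 (↑S : Set ℕ))

variable {p : ℕ} [Fact p.Prime] {O : Type} [CommRing O] [IsDomain O] [IsDiscreteValuationRing O]
  [IsAdicComplete (maximalIdeal O) O] [CharZero O] (hpO : (p : O) ∈ maximalIdeal O)
  {N : ℕ} [NeZero N] {S : Finset ℕ}

/-- `g ↦ χ(g) M(g)⁻¹`. -/
def galDual (N : ℕ) [NeZero N] : Γℚ →* (Cm N O)ᵐᵒᵖ where
  toFun g := MulOpposite.op (padicHom (maximalIdeal O) hpO (cyc p g) • galO hpO N g⁻¹)
  map_one' := by simp
  map_mul' g h := by
    rw [← MulOpposite.op_mul, smul_mul_smul_comm, ← map_mul (galO hpO N), ← _root_.mul_inv_rev,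
      mul_comm (padicHom (maximalIdeal O) hpO (cyc p h)), ← map_mul (padicHom _ hpO), ← map_mul]

theorem commute_galO_heckeMatO (z : HeckeO N S O) (g : Γℚ) :
    Commute (galO hpO N g) (heckeMatO N (↑S : Set ℕ) O z) := by
  induction z using TensorProduct.induction_on with
  | zero => rw [map_zero]; exact Commute.zero_right _
  | tmul a t =>
    rw [heckeMatO_tmul]
    refine Commute.smul_right ?_ a
    have h := ((galModel N p).commute_hecke g (Subalgebra.inclusion
      (heckeAlgebra_mono (Set.empty_subset (↑S : Set ℕ))) t)).map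
        (padicHom (maximalIdeal O) hpO).mapMatrix
    have e : (padicHom (maximalIdeal O) hpO).mapMatrix ((Int.castRingHom ℤ_[p]).mapMatrix
        (heckeMatAlg N (↑S : Set ℕ) t)) = (heckeMatAlg N (↑S : Set ℕ) t).map (Int.castRingHom O) := by
      ext i j; simp
    rw [← e]
    exact h
  | add x y hx hy => rw [map_add]; exact hx.add_right hy

theorem commute_galDual_heckeMatO (z : HeckeO N S O) (g : Γℚ) :
    Commute (galDual hpO N g).unop (heckeMatO N (↑S : Set ℕ) O z) :=
  (commute_galO_heckeMatO hpO z g⁻¹).smul_left _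

variable {T : Type} [CommRing T] [IsLocalRing T] [IsNoetherianRing T]
  [IsAdicComplete (maximalIdeal T) T] [Algebra O T] [IsLocalHom (algebraMap O T)]

/-- The map of the Hecke ring with coefficients to `T`. -/
def heckeToT (π : ↥(heckeAlgebra N 2 (↑S : Set ℕ)) →+* T) : HeckeO N S O →ₐ[O] T :=
  Algebra.TensorProduct.lift (Algebra.ofId O T) π.toIntAlgHom fun _ _ => Commute.all _ _

theorem heckeToT_tmul (π : ↥(heckeAlgebra N 2 (↑S : Set ℕ)) →+* T) (a : O)
    (t : ↥(heckeAlgebra N 2 (↑S : Set ℕ))) :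
    heckeToT π (a ⊗ₜ t) = algebraMap O T a * π t :=
  Algebra.TensorProduct.lift_tmul _ _ _ a t

variable {π : ↥(heckeAlgebra N 2 (↑S : Set ℕ)) →+* T} {ρ : GaloisRepAdic T}

/-- The trace relation at a group element. -/
theorem exists_trace_galO (h : Local.IsAttached π ρ p) (g : Γℚ) :
    ∃ z : HeckeO N S O,
      heckeMatO N (↑S : Set ℕ) O z = galO hpO N g +
        padicHom (maximalIdeal O) hpO (cyc p g) • galO hpO N g⁻¹ ∧
      LinearMap.trace T ρ.V (ρ.ρ g) = heckeToT π z := by
  have hmem := Local.traceOp_mem_span (Local.tauS (galModel N p) S) (galModel N p).M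
    (galModel N p).continuous_level S h.p_mem (fun ℓ hℓ hℓS A hA σ hσ => by
      obtain ⟨t, ht, -⟩ := h.frob (galModel N p) hℓ hℓS hA hσ
      exact ⟨t, ht⟩) g
  obtain ⟨c, hc⟩ := Finsupp.mem_span_range_iff_exists_finsupp.mp hmem
  refine ⟨∑ t ∈ c.support, padicHom (maximalIdeal O) hpO (c t) ⊗ₜ t, ?_, ?_⟩
  · have hc' : ∀ i j, (∑ t ∈ c.support, c t * ((heckeMatAlg N (↑S : Set ℕ) t i j : ℤ) : ℤ_[p])) =
        galZp N p g i j + cyc p g * galZp N p g⁻¹ i j := fun i j => by
      have h1 : (∑ t ∈ c.support,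
          c t • (heckeMatAlg N (↑S : Set ℕ) t).map (Int.castRingHom ℤ_[p]) : Cm N ℤ_[p]) =
          galZp N p g + cyc p g • galZp N p g⁻¹ := hc
      have h2 := congrFun (congrFun h1 i) j
      simp only [Matrix.sum_apply, Matrix.smul_apply, Matrix.add_apply, Matrix.map_apply,
        smul_eq_mul, eq_intCast] at h2
      exact h2
    ext i j
    have h2 := congrArg (padicHom (maximalIdeal O) hpO) (hc' i j)
    simp only [map_sum, map_mul, map_intCast, map_add] at h2
    rw [map_sum, Matrix.sum_apply, Matrix.add_apply, Matrix.smul_apply, galO_apply, galO_apply,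
      Matrix.map_apply, Matrix.map_apply, smul_eq_mul, ← h2]
    refine Finset.sum_congr rfl fun t _ => ?_
    rw [heckeMatO_tmul, Matrix.smul_apply, Matrix.map_apply, smul_eq_mul]
    rfl
  · rw [h.trace_eq_sum (galModel N p) ((algebraMap O T).comp (padicHom (maximalIdeal O) hpO)) g
      c.support c id hc.symm, map_sum]
    refine Finset.sum_congr rfl fun t _ => ?_
    rw [heckeToT_tmul]
    rfl

/-- The trace relation on the group ring. -/
theorem exists_trace_heckeO (h : Local.IsAttached π ρ p) (X : MonoidAlgebra ℤ Γℚ) :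
    ∃ z : HeckeO N S O,
      heckeMatO N (↑S : Set ℕ) O z = MonoidAlgebra.lift ℤ (Cm N O) Γℚ (galO hpO N) X +
        (MonoidAlgebra.lift ℤ (Cm N O)ᵐᵒᵖ Γℚ (galDual hpO N) X).unop ∧
      LinearMap.trace T ρ.V (MonoidAlgebra.lift ℤ (Module.End T ρ.V) Γℚ ρ.ρ X) =
        heckeToT π z := by
  induction X using MonoidAlgebra.induction_on with
  | of g =>
    obtain ⟨z, hz, hzt⟩ := exists_trace_galO hpO h g
    refine ⟨z, ?_, ?_⟩
    · rw [MonoidAlgebra.lift_of, MonoidAlgebra.lift_of]
      exact hz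
    · rw [MonoidAlgebra.lift_of]
      exact hzt
  | add X X' hX hX' =>
    obtain ⟨z, hz, hzt⟩ := hX
    obtain ⟨z', hz', hzt'⟩ := hX'
    refine ⟨z + z', ?_, ?_⟩
    · simp only [map_add, MulOpposite.unop_add, hz, hz']
      abel
    · simp only [map_add, hzt, hzt']
  | smul r X hX =>
    obtain ⟨z, hz, hzt⟩ := hX
    refine ⟨r • z, ?_, ?_⟩
    · simp only [map_zsmul, hz, MulOpposite.unop_smul, smul_add]
    · simp only [map_zsmul, hzt]

variable [CharP (ResidueField O) p] (ã : Fam S → O)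

/-- An element of the generalised eigenspace killed modulo a power by an injective commutator. -/
theorem mem_smallSub_of_commutator {τ b : Γℚ}
    (hinj : ∀ v ∈ genEig N (fun l => residue O (ã l)),
      (galF N p (ResidueField O) τ * galF N p (ResidueField O) b -
        galF N p (ResidueField O) b * galF N p (ResidueField O) τ) *ᵥ v = 0 → v = 0)
    {ϖ₀ : O} (hϖ : Irreducible ϖ₀) :
    ∀ (n : ℕ) (u : Cv N O), u ∈ topNil ã N →
      (galO hpO N τ * galO hpO N b - galO hpO N b * galO hpO N τ) *ᵥ u ∈ smallSub O _ n →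
      u ∈ smallSub O _ n := by
  intro n
  induction n with
  | zero => intro u _ _; simp [mem_smallSub]
  | succ n ih =>
    intro u hu hC
    have h1 : redVec u = 0 := by
      refine hinj _ (redVec_mem_genEig ã hu) ?_
      have h0 := redVec_eq_zero_iff.mpr (mem_smallSub.mpr fun i =>
        Ideal.pow_le_pow_right (Nat.le_add_left 1 n) (mem_smallSub.mp hC i))
      rw [redVec_mulVec, ← RingHom.mapMatrix_apply, map_sub, map_mul, map_mul] at h0
      simpa only [RingHom.mapMatrix_apply, galO_residue] using h0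
    obtain ⟨u', rfl⟩ := exists_div_uniformizer hϖ (redVec_eq_zero_iff.mp h1)
    rw [mulVec_smul, smul_mem_smallSub hϖ] at hC
    exact (smul_mem_smallSub hϖ).mpr (ih u' (topNil_div ã hϖ hu) hC)

variable [Module.Finite O T]

theorem moduleFinite_heckeO : Module.Finite O (HeckeO N S O) :=
  Module.Finite.of_injective (heckeMatO N (↑S : Set ℕ) O).toLinearMap heckeMatO_injective

/-- The deviation in the Hecke ring. -/
def devH (hNS : ∀ q : ℕ, q.Prime → q ∣ N → q ∈ S) (l : Fam S) : HeckeO N S O :=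
  (1 : O) ⊗ₜ heckeAlgebra.T l.1.2 (fun hd => l.2 (hNS _ l.1.2 hd)) (mod_cast l.2) -
    algebraMap O _ (ã l)

theorem heckeMatO_devH (hNS : ∀ q : ℕ, q.Prime → q ∣ N → q ∈ S) (l : Fam S) :
    heckeMatO N (↑S : Set ℕ) O (devH ã hNS l) = devO ã N l := by
  rw [devH, map_sub, AlgHom.commutes, heckeMatO_tmul, one_smul,
    Algebra.algebraMap_eq_smul_one, devO]
  congr 1
  have e : heckeGenOf N l.1 = heckeTOf l.1.2 (fun hd => l.2 (hNS _ l.1.2 hd)) :=
    heckeGenOf_T N l.1.2 (fun hd => l.2 (hNS _ l.1.2 hd))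
  rw [heckeAt, e]
  rfl

/-- In a finite algebra over `O`, the idempotent at a maximal ideal makes its elements
topologically nilpotent. -/
theorem exists_idem_nilpotent {A : Type} [CommRing A] [Algebra O A] [Module.Finite O A]
    (m : Ideal A) [m.IsMaximal] {ϖ₀ : O} (hϖ : Irreducible ϖ₀) :
    ∃ ε : A, ε * ε = ε ∧ 1 - ε ∈ m ∧
      ∀ d ∈ m, ∀ n : ℕ, ∃ K, ∀ K' ≥ K, ∃ c : A, d ^ K' * ε = ϖ₀ ^ n • c := by
  classical
  obtain ⟨-, hbij, -, -⟩ :=
    Algebra.finite_maximalSpectrum_and_bijective_localization_of_module_finite (𝒪 := O) A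
  let I : MaximalSpectrum A := ⟨m, inferInstance⟩
  obtain ⟨ε, hε⟩ := hbij.2 (Pi.single I 1)
  have hproj : ∀ J : MaximalSpectrum A, algebraMap _ (Localization.AtPrime J.asIdeal) ε =
        (Pi.single I 1 : ∀ J : MaximalSpectrum _, Localization.AtPrime J.asIdeal) J :=
    fun J => congrFun hε J
  have hidem : ε * ε = ε := hbij.1 (funext fun J => by
    show algebraMap _ (Localization.AtPrime J.asIdeal) (ε * ε) = algebraMap _ _ ε
    rw [map_mul, hproj]
    rcases eq_or_ne J I with rfl | hne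
    · rw [Pi.single_eq_same, one_mul]
    · rw [Pi.single_eq_of_ne hne, zero_mul])
  have hε1 : 1 - ε ∈ m := by
    by_contra hmem
    have h1 : IsUnit (algebraMap A (Localization.AtPrime I.asIdeal) (1 - ε)) :=
      IsLocalization.map_units _ (⟨1 - ε, hmem⟩ : I.asIdeal.primeCompl)
    rw [map_sub, map_one, hproj, Pi.single_eq_same, sub_self] at h1
    exact not_isUnit_zero h1
  have hout : ∀ J : MaximalSpectrum A, J ≠ I → ε ∈ J.asIdeal := fun J hne => by
    by_contra hmem
    have h1 : IsUnit (algebraMap A (Localization.AtPrime J.asIdeal) ε) :=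
      IsLocalization.map_units _ (⟨ε, hmem⟩ : J.asIdeal.primeCompl)
    rw [hproj, Pi.single_eq_of_ne hne] at h1
    exact not_isUnit_zero h1
  refine ⟨ε, hidem, hε1, fun d hd n => ?_⟩
  -- every prime over `ϖ` containing `1 - ε` is `m`
  have hrad : d ∈ Ideal.radical (Ideal.span {algebraMap O A (ϖ₀ ^ n), 1 - ε}) := by
    rw [Ideal.radical_eq_sInf, Submodule.mem_sInf]
    intro P hP'
    obtain ⟨hle, hP⟩ : Ideal.span {algebraMap O A (ϖ₀ ^ n), 1 - ε} ≤ P ∧ Ideal.IsPrime P := hP'
    have h1 : algebraMap O A ϖ₀ ∈ P :=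
      hP.mem_of_pow_mem n (by rw [← map_pow]; exact hle (Ideal.subset_span (Or.inl rfl)))
    have h2 : maximalIdeal O = Ideal.comap (algebraMap O A) P :=
      (IsLocalRing.maximalIdeal.isMaximal O).eq_of_le (hP.comap _).ne_top (by
        rw [hϖ.maximalIdeal_eq, Ideal.span_le, Set.singleton_subset_iff]
        exact h1)
    haveI := hP
    have hPmax : Ideal.IsMaximal P := Ideal.isMaximal_of_isIntegral_of_isMaximal_comap P
      (h2 ▸ IsLocalRing.maximalIdeal.isMaximal O)
    have hPI : (⟨P, hPmax⟩ : MaximalSpectrum _) = I := by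
      by_contra hne
      refine hP.ne_top ((Ideal.eq_top_iff_one _).mpr ?_)
      have := Ideal.add_mem _ (hle (Ideal.subset_span (Or.inr rfl))) (hout _ hne)
      rwa [sub_add_cancel] at this
    exact (congrArg MaximalSpectrum.asIdeal hPI).symm.le hd
  obtain ⟨K, hK⟩ := hrad
  obtain ⟨c, c', hc⟩ := Ideal.mem_span_pair.mp hK
  refine ⟨K, fun K' hK' => ⟨d ^ (K' - K) * c * ε, ?_⟩⟩
  rw [Algebra.smul_def, show d ^ K' = d ^ (K' - K) * d ^ K by
    rw [← pow_add, Nat.sub_add_cancel hK'], ← hc]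
  linear_combination (-(d ^ (K' - K)) * c') * hidem

/-- An element of the Hecke ring over the identity of `T` projecting to the topologically
nilpotent vectors. -/
theorem exists_nilpotent_proj (hNS : ∀ q : ℕ, q.Prime → q ∣ N → q ∈ S)
    (hres : Function.Surjective (residue T ∘ algebraMap O T))
    (ha : ∀ (l : Fam S) (hlN : ¬ (l.1 : ℕ) ∣ N),
      π (heckeAlgebra.T l.1.2 hlN (mod_cast l.2)) - algebraMap O T (ã l) ∈ maximalIdeal T) :
    ∃ ε : HeckeO N S O, heckeToT π ε = 1 ∧
      ∀ x : Cv N O, heckeMatO N (↑S : Set ℕ) O ε *ᵥ x ∈ topNil ã N := by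
  classical
  haveI := moduleFinite_heckeO (O := O) (N := N) (S := S)
  let f : HeckeO N S O →+* ResidueField T := (residue T).comp (heckeToT π).toRingHom
  have hf : Function.Surjective f := fun c => by
    obtain ⟨a, rfl⟩ := hres c
    exact ⟨algebraMap O _ a, congrArg (residue T) (AlgHom.commutes _ a)⟩
  haveI : (RingHom.ker f).IsMaximal := RingHom.ker_isMaximal_of_surjective f hf
  obtain ⟨ϖ₀, hϖ⟩ := IsDiscreteValuationRing.exists_irreducible O
  obtain ⟨ε, hidem, hε1, hnil⟩ := exists_idem_nilpotent (RingHom.ker f) hϖ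
  have hπε : heckeToT π ε = 1 := by
    have hu : IsUnit (heckeToT π ε) := IsLocalRing.notMem_maximalIdeal.mp fun hm => by
      have h1 : residue T (heckeToT π (1 - ε)) = 0 := hε1
      rw [map_sub, map_one, map_sub, map_one, (IsLocalRing.residue_eq_zero_iff _).mpr hm,
        sub_zero] at h1
      exact one_ne_zero h1
    refine hu.mul_left_cancel ?_
    rw [mul_one, ← map_mul, hidem]
  refine ⟨ε, hπε, fun x l n => ?_⟩
  set d := devH ã hNS l with hd'
  have hd : d ∈ RingHom.ker f := by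
    show residue T (heckeToT π d) = 0
    rw [IsLocalRing.residue_eq_zero_iff, hd', devH, map_sub, AlgHom.commutes, heckeToT_tmul,
      map_one, one_mul]
    exact ha l _
  obtain ⟨K, hK⟩ := hnil d hd n
  refine ⟨K, fun K' hK' => ?_⟩
  obtain ⟨c, hc⟩ := hK K' hK'
  have hM := congrArg (heckeMatO N (↑S : Set ℕ) O) hc
  rw [map_mul, map_pow, hd', heckeMatO_devH, map_smul] at hM
  rw [mulVec_mulVec, hM, smul_mulVec, mem_smallSub]
  intro i
  exact Ideal.mul_mem_right _ _ (hϖ.maximalIdeal_eq ▸ Ideal.pow_mem_pow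
    (Ideal.mem_span_singleton_self _) n)

/-- Hecke elements acting on `Cv N O` into a deep step lie in a deep step. -/
theorem exists_artinRees (π : ↥(heckeAlgebra N 2 (↑S : Set ℕ)) →+* T) :
    ∃ c : ℕ, ∀ (n : ℕ) (z : HeckeO N S O),
      (∀ x, heckeMatO N (↑S : Set ℕ) O z *ᵥ x ∈ smallSub O _ (n + c)) →
        heckeToT π z ∈ maximalIdeal T ^ n := by
  obtain ⟨c, hc⟩ := Ideal.exists_pow_inf_eq_pow_smul (maximalIdeal O)
    (LinearMap.range (heckeMatO N (↑S : Set ℕ) O).toLinearMap)
  refine ⟨c, fun n z hz => ?_⟩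
  have hmem : heckeMatO N (↑S : Set ℕ) O z ∈ maximalIdeal O ^ (n + c) •
      (⊤ : Submodule O (Cm N O)) ⊓ LinearMap.range (heckeMatO N (↑S : Set ℕ) O).toLinearMap := by
    refine ⟨?_, z, rfl⟩
    rw [Matrix.matrix_eq_sum_single (heckeMatO N (↑S : Set ℕ) O z)]
    refine Submodule.sum_mem _ fun i _ => Submodule.sum_mem _ fun j _ => ?_
    rw [show Matrix.single i j (heckeMatO N (↑S : Set ℕ) O z i j) =
      heckeMatO N (↑S : Set ℕ) O z i j • Matrix.single i j (1 : O) by
        rw [Matrix.smul_single, smul_eq_mul, mul_one]]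
    refine Submodule.smul_mem_smul ?_ Submodule.mem_top
    have := mem_smallSub.mp (hz (Pi.single j 1)) i
    simpa using this
  rw [hc (n + c) (Nat.le_add_left c n), Nat.add_sub_cancel] at hmem
  have h2 := Submodule.smul_mono (le_refl (maximalIdeal O ^ n))
    (inf_le_right : maximalIdeal O ^ c • (⊤ : Submodule O (Cm N O)) ⊓
      LinearMap.range (heckeMatO N (↑S : Set ℕ) O).toLinearMap ≤ _) hmem
  rw [LinearMap.range_eq_map, ← Submodule.map_smul''] at h2
  obtain ⟨w, hw, hwz⟩ := h2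
  rw [← heckeMatO_injective hwz]
  refine Submodule.smul_induction_on hw (fun r hr x _ => ?_) fun x y hx hy => ?_
  · rw [map_smul, Algebra.smul_def]
    refine Ideal.mul_mem_right _ _ ?_
    have hle : (maximalIdeal O).map (algebraMap O T) ≤ maximalIdeal T :=
      Ideal.map_le_iff_le_comap.mpr fun a ha => map_nonunit (algebraMap O T) a ha
    have := Ideal.mem_map_of_mem (algebraMap O T) hr
    rw [Ideal.map_pow] at this
    exact Ideal.pow_right_mono hle n this
  · rw [map_add]; exact add_mem hx hy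

/-- **Transfer**: on a residually absolutely irreducible attached representation powers of
`τ + 1` times `σ - 1` tend to zero. -/
theorem exists_exponent_rep (h : Local.IsAttached π ρ p) (habs : ρ.residual.IsAbsolutelyIrreducible)
    (hres : Function.Surjective (residue T ∘ algebraMap O T))
    (ha : ∀ (l : Fam S) (hlN : ¬ (l.1 : ℕ) ∣ N),
      π (heckeAlgebra.T l.1.2 hlN (mod_cast l.2)) - algebraMap O T (ã l) ∈ maximalIdeal T)
    {τ b : Γℚ}
    (hinj : ∀ v ∈ genEig N (fun l => residue O (ã l)),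
      (galF N p (ResidueField O) τ * galF N p (ResidueField O) b -
        galF N p (ResidueField O) b * galF N p (ResidueField O) τ) *ᵥ v = 0 → v = 0)
    {s : Set Γℚ} {e : ℕ → ℕ}
    (hexp : ∀ σ ∈ s, ∀ y ∈ topNil ã N, ∀ n,
      ((galO hpO N τ + 1) ^ e n * (galO hpO N σ - 1)) *ᵥ y ∈ smallSub O _ n) :
    ∃ f : ℕ → ℕ, ∀ σ ∈ s, ∀ (n : ℕ) (v : ρ.V),
      ((ρ.ρ τ + 1) ^ f n * (ρ.ρ σ - 1)) v ∈ maximalIdeal T ^ n • (⊤ : Submodule T ρ.V) := by
  obtain ⟨ϖ₀, hϖ⟩ := IsDiscreteValuationRing.exists_irreducible O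
  obtain ⟨ε, hε1, hεT⟩ := exists_nilpotent_proj ã h.bad_mem hres ha
  obtain ⟨c, hc⟩ := exists_artinRees (O := O) π
  refine ⟨fun n => e (n + c), fun σ hσ n v => ?_⟩
  set m := n + c
  let P := MonoidAlgebra.lift ℤ (Cm N O) Γℚ (galO hpO N)
  let Q := MonoidAlgebra.lift ℤ (Cm N O)ᵐᵒᵖ Γℚ (galDual hpO N)
  let R := MonoidAlgebra.lift ℤ (Module.End T ρ.V) Γℚ ρ.ρ
  let of := MonoidAlgebra.of ℤ Γℚ
  let X₀ : MonoidAlgebra ℤ Γℚ := (of τ + 1) ^ e m * (of σ - 1)
  have hPX : P X₀ = (galO hpO N τ + 1) ^ e m * (galO hpO N σ - 1) := by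
    simp only [X₀, of, P, map_mul, map_pow, map_add, map_sub, map_one, MonoidAlgebra.lift_of]
  have hRX : R X₀ = (ρ.ρ τ + 1) ^ e m * (ρ.ρ σ - 1) := by
    simp only [X₀, of, R, map_mul, map_pow, map_add, map_sub, map_one, MonoidAlgebra.lift_of]
  let Hm := heckeMatO N (↑S : Set ℕ) O
  have hHT : ∀ (z : HeckeO N S O) {y : Cv N O}, y ∈ topNil ã N → Hm z *ᵥ y ∈ topNil ã N :=
    fun z y hy => topNil_map ã _ (fun l => by
      rw [← heckeMatO_devH ã h.bad_mem l]; exact ((Commute.all _ _).map Hm).eq) hy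
  have hDT : ∀ (g : Γℚ) {y : Cv N O}, y ∈ topNil ã N → (galDual hpO N g).unop *ᵥ y ∈ topNil ã N :=
    fun g y hy => topNil_map ã _ (fun l => ((galO_commute_devO hpO ã N g⁻¹ l).smul_left _).eq) hy
  obtain ⟨z₀, hz₀, -⟩ := exists_trace_heckeO hpO h X₀
  choose z hz hzt using fun g => exists_trace_heckeO hpO h (of g * X₀)
  -- the Hecke elements of `g X₀` through those of `X₀`
  have hrel : ∀ g, ∀ y ∈ topNil ã N,
      Hm (z g) *ᵥ y - (galDual hpO N g).unop *ᵥ (Hm z₀ *ᵥ y) ∈ smallSub O _ m := by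
    intro g y hy
    set D := (galDual hpO N g).unop
    have e1 : Hm (z g) = galO hpO N g * P X₀ + (Q X₀).unop * D := by
      rw [show Hm (z g) = P (of g * X₀) + (Q (of g * X₀)).unop from hz g, map_mul P, map_mul Q,
        MulOpposite.unop_mul, show P (of g) = galO hpO N g from MonoidAlgebra.lift_of _ _,
        show Q (of g) = galDual hpO N g from MonoidAlgebra.lift_of _ _]
    have e2 : D *ᵥ (Hm z₀ *ᵥ y) = Hm z₀ *ᵥ (D *ᵥ y) := by
      rw [mulVec_mulVec, mulVec_mulVec, (commute_galDual_heckeMatO hpO z₀ g).eq]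
    have e3 : (Q X₀).unop = Hm z₀ - P X₀ := eq_sub_of_add_eq' hz₀.symm
    rw [e2, e1, e3, add_mulVec, ← mulVec_mulVec y (galO hpO N g),
      ← mulVec_mulVec y (Hm z₀ - P X₀), sub_mulVec, ← add_sub_assoc, sub_right_comm,
      add_sub_cancel_right, hPX]
    exact sub_mem (mulVec_mem_smallSub _ (hexp σ hσ y hy m)) (hexp σ hσ _ (hDT g hy) m)
  have hzero : ∀ y ∈ topNil ã N, Hm z₀ *ᵥ y ∈ smallSub O _ m := by
    intro y hy
    set A := (galDual hpO N τ⁻¹).unop
    set B := (galDual hpO N b⁻¹).unop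
    set u := Hm z₀ *ᵥ y
    have k1 := mulVec_mem_smallSub B (hrel τ⁻¹ y hy)
    have k2 := hrel τ⁻¹ (B *ᵥ y) (hDT b⁻¹ hy)
    have eB : ∀ (z : HeckeO N S O) (w : Cv N O), Hm z *ᵥ (B *ᵥ w) = B *ᵥ (Hm z *ᵥ w) := fun z w => by
      rw [mulVec_mulVec, mulVec_mulVec, (commute_galDual_heckeMatO hpO z b⁻¹).eq]
    rw [eB, eB] at k2
    rw [mulVec_sub] at k1
    have k3 := sub_mem k1 k2
    rw [sub_sub_sub_cancel_left] at k3
    replace k3 : (A * B - B * A) *ᵥ u ∈ smallSub O _ m := by
      rw [sub_mulVec, ← mulVec_mulVec, ← mulVec_mulVec]; exact k3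
    have hab : A * B - B * A =
        (padicHom (maximalIdeal O) hpO (cyc p τ⁻¹) * padicHom (maximalIdeal O) hpO (cyc p b⁻¹)) •
          (galO hpO N τ * galO hpO N b - galO hpO N b * galO hpO N τ) := by
      show (_ • galO hpO N (τ⁻¹)⁻¹) * (_ • galO hpO N (b⁻¹)⁻¹) -
        (_ • galO hpO N (b⁻¹)⁻¹) * (_ • galO hpO N (τ⁻¹)⁻¹) = _
      rw [inv_inv, inv_inv, smul_mul_smul_comm, smul_mul_smul_comm, smul_sub,
        mul_comm (padicHom (maximalIdeal O) hpO (cyc p b⁻¹))]
    obtain ⟨w, hw⟩ := (((Group.isUnit (τ⁻¹)).map ((padicHom (maximalIdeal O) hpO).toMonoidHom.comp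
      (cyc p))).mul ((Group.isUnit (b⁻¹)).map ((padicHom (maximalIdeal O) hpO).toMonoidHom.comp
      (cyc p)))).exists_left_inv
    refine mem_smallSub_of_commutator hpO ã hinj hϖ m u (hHT z₀ hy) ?_
    have k4 := (smallSub O _ m).smul_mem w k3
    rw [hab, smul_mulVec, smul_smul] at k4
    change (w * (padicHom (maximalIdeal O) hpO (cyc p τ⁻¹) *
      padicHom (maximalIdeal O) hpO (cyc p b⁻¹))) • _ ∈ _ at k4
    change w * (padicHom (maximalIdeal O) hpO (cyc p τ⁻¹) *
      padicHom (maximalIdeal O) hpO (cyc p b⁻¹)) = 1 at hw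
    rwa [hw, one_smul] at k4
  rw [show (ρ.ρ τ + 1) ^ e m * (ρ.ρ σ - 1) = R X₀ from hRX.symm]
  refine FlatHopf.mem_smul_top_of_forall_trace ρ habs _ _ (fun g => ?_) v
  rw [LinearMap.trace_mul_comm, show ρ.ρ g * R X₀ = R (of g * X₀) by
    rw [map_mul R (of g), show R (of g) = ρ.ρ g from MonoidAlgebra.lift_of _ _], hzt g,
    ← mul_one (heckeToT π (z g)), ← hε1, ← map_mul]
  refine hc n _ fun x => ?_
  rw [map_mul, ← mulVec_mulVec]
  have k := add_mem (hrel g _ (hεT x))
    (mulVec_mem_smallSub (galDual hpO N g).unop (hzero _ (hεT x)))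
  rwa [sub_add_cancel] at k

end FLTAgent.OrdP
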